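import Fermat.Agent.OpenImageAll.ClassNumber

/-!
# `ℚ(√-p)` of class number one with `p` small

If the ring of integers of `ℚ(√-p)` is principal, a prime `l < p / 4` is no norm, so it stays
prime and divides no norm `(a² + p b²) / 4` with `l ∤ a`. For `p < 1000` this leaves only
`p = 3, 7, 11, 19, 43, 67, 163`.
-/

set_option autoImplicit false
set_option linter.style.haveILetI false

noncomputable section

open NumberField Ideal Module

namespace FA.ExceptionalIsCM

variable {K : Type*} [Field K] [NumberField K] {d : ℤ} {s : K}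

/-- The norm of `u + v √d`. -/
theorem norm_add_mul (hK : finrank ℚ K = 2) (hd : d < 0) (hs : s ^ 2 = d) (u v : ℚ) :
    Algebra.norm ℚ ((u : K) + (v : K) * s) = u ^ 2 - d * v ^ 2 := by
  have hli : LinearIndependent ℚ ![1, s] := LinearIndependent.pair_iff.mpr fun a b e => by
    by_cases hb : b = 0
    · subst hb
      rw [zero_smul, add_zero, smul_eq_zero, or_iff_left one_ne_zero] at e
      exact ⟨e, rfl⟩
    · exfalso
      have hr : algebraMap ℚ K (-a / b) = s := by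
        rw [Algebra.smul_def, Algebra.smul_def, mul_one] at e
        rw [map_div₀, map_neg, div_eq_iff ((map_ne_zero _).mpr hb)]
        linear_combination -e
      have hsq : (-a / b) ^ 2 = (d : ℚ) :=
        (algebraMap ℚ K).injective (by rw [map_pow, hr, hs, map_intCast])
      have : (d : ℚ) < 0 := Int.cast_lt_zero.mpr hd
      nlinarith [sq_nonneg (-a / b)]
  let B := basisOfLinearIndependentOfCardEqFinrank hli (by rw [Fintype.card_fin, hK])
  have hB : ∀ i, B i = ![1, s] i := fun i => by simp [B]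
  have e0 : ((u : K) + (v : K) * s) * B 0 = u • B 0 + v • B 1 := by
    simp [hB, Rat.smul_def]
  have e1 : ((u : K) + (v : K) * s) * B 1 = (v * d) • B 0 + u • B 1 := by
    simp only [hB, Matrix.cons_val_zero, Matrix.cons_val_one, Matrix.cons_val_fin_one,
      Rat.smul_def]
    push_cast
    linear_combination (v : K) * hs
  rw [Algebra.norm_eq_matrix_det B, Matrix.det_fin_two]
  simp only [Algebra.leftMulMatrix_eq_repr_mul, e0, e1, map_add, map_smul, B.repr_self,
    Finsupp.add_apply, Finsupp.smul_apply, Finsupp.single_eq_same, smul_eq_mul,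
    Finsupp.single_eq_of_ne (show (0 : Fin 2) ≠ 1 by decide),
    Finsupp.single_eq_of_ne (show (1 : Fin 2) ≠ 0 by decide)]
  ring

/-- Coordinates: every element is `u + v √d`. -/
theorem exists_coords (hK : finrank ℚ K = 2) (hd : d < 0) (hs : s ^ 2 = d) (x : K) :
    ∃ u v : ℚ, x = (u : K) + (v : K) * s := by
  have hsQ : ∀ q : ℚ, algebraMap ℚ K q ≠ s := fun q e => by
    have hsq : q ^ 2 = (d : ℚ) :=
      (algebraMap ℚ K).injective (by rw [map_pow, e, hs, map_intCast])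
    have : (d : ℚ) < 0 := Int.cast_lt_zero.mpr hd
    nlinarith [sq_nonneg q]
  have hli : LinearIndependent ℚ ![1, s] :=
    (LinearIndependent.pair_iff' one_ne_zero).mpr fun q e => hsQ q (by
      rw [← e, Algebra.smul_def, mul_one])
  let B := basisOfLinearIndependentOfCardEqFinrank hli (by rw [Fintype.card_fin, hK])
  refine ⟨B.repr x 0, B.repr x 1, ?_⟩
  conv_lhs => rw [← B.sum_repr x]
  simp [Fin.sum_univ_two, B, Rat.smul_def]

/-- The norm and twice the first coordinate of an integer are integers. -/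
theorem norm_trace_int (hK : finrank ℚ K = 2) (hd : d < 0) (hs : s ^ 2 = d) {z : 𝓞 K} {u v : ℚ}
    (hz : (z : K) = (u : K) + (v : K) * s) :
    u ^ 2 - d * v ^ 2 = (Algebra.norm ℤ z : ℚ) ∧ ∃ a : ℤ, 2 * u = a := by
  have h0 : u ^ 2 - d * v ^ 2 = (Algebra.norm ℤ z : ℚ) := by
    rw [Algebra.coe_norm_int, hz, norm_add_mul hK hd hs]
  have h1 : (u + 1) ^ 2 - d * v ^ 2 = (Algebra.norm ℤ (z + 1) : ℚ) := by
    rw [Algebra.coe_norm_int, show ((z + 1 : 𝓞 K) : K) = (z : K) + 1 by simp, hz,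
      show (u : K) + (v : K) * s + 1 = ((u + 1 : ℚ) : K) + (v : K) * s by push_cast; ring,
      norm_add_mul hK hd hs]
  exact ⟨h0, Algebra.norm ℤ (z + 1) - Algebra.norm ℤ z - 1, by
    push_cast; linear_combination h1 - h0⟩

/-- **A small prime is no norm from `ℚ(√-p)`.** -/
theorem norm_ne_of_lt {p l : ℕ} (hp : p.Prime) (hl : l.Prime) (hlp : 4 * l < p)
    (hK : finrank ℚ K = 2) (hs : s ^ 2 = ((-(p : ℤ) : ℤ) : K)) (x : 𝓞 K) :
    (Algebra.norm ℤ x).natAbs ≠ l := by
  intro hx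
  have hd : (-(p : ℤ)) < 0 := neg_lt_zero.mpr (by exact_mod_cast hp.pos)
  obtain ⟨u, v, huv⟩ := exists_coords hK hd hs (x : K)
  obtain ⟨hn, a, ha⟩ := norm_trace_int hK hd hs huv
  push_cast at hn
  have hnn : Algebra.norm ℤ x = (l : ℤ) := by
    have : (0 : ℚ) ≤ (Algebra.norm ℤ x : ℚ) := by rw [← hn]; nlinarith [sq_nonneg u, sq_nonneg v]
    rw [← hx, Int.natAbs_of_nonneg (by exact_mod_cast this)]
  rw [hnn, Int.cast_natCast] at hn
  set w : ℚ := 2 * p * v with hw
  have hw2 : w ^ 2 = ((p * (4 * l - a ^ 2) : ℤ) : ℚ) := by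
    push_cast
    rw [hw, ← ha]
    linear_combination (4 * (p : ℚ)) * hn
  have hden : w.den = 1 := by
    have h := congrArg Rat.den hw2
    rw [Rat.den_pow, Rat.den_intCast] at h
    exact (pow_eq_one_iff_left two_ne_zero).mp h
  rw [← Rat.coe_int_num_of_den_eq_one hden, ← Int.cast_pow, Int.cast_inj] at hw2
  obtain ⟨k, hk⟩ := (Nat.prime_iff_prime_int.mp hp).dvd_of_dvd_pow ⟨_, hw2⟩
  rw [hk] at hw2
  have hp0 : (p : ℤ) ≠ 0 := Int.natCast_ne_zero.mpr hp.ne_zero
  have hm : (p : ℤ) * k ^ 2 = 4 * l - a ^ 2 := mul_left_cancel₀ hp0 (by linear_combination hw2)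
  have hk0 : k ^ 2 = 0 := by
    have hlp' : 4 * (l : ℤ) < p := by exact_mod_cast hlp
    nlinarith [sq_nonneg k, sq_nonneg a]
  rw [hk0, mul_zero] at hm
  obtain ⟨b, rfl⟩ : (2 : ℤ) ∣ a := Int.prime_two.dvd_of_dvd_pow (n := 2) ⟨2 * l, by linarith⟩
  refine (Nat.prime_iff_prime_int.mp hl).not_isSquare ⟨b, ?_⟩
  linarith

/-- **Class number one forbids small split primes.** -/
theorem not_dvd_norm {p l : ℕ} (hp : p.Prime) (hl : l.Prime) (hlp : 4 * l < p)
    (hK : finrank ℚ K = 2) (hs : s ^ 2 = ((-(p : ℤ) : ℤ) : K)) (h1 : classNumber K = 1)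
    {a b : ℕ} (hb : b ≠ 0) (h : 4 * l ∣ a ^ 2 + p * b ^ 2) : l ∣ a := by
  haveI := classNumber_eq_one_iff.mp h1
  have hd : (-(p : ℤ)) < 0 := neg_lt_zero.mpr (by exact_mod_cast hp.pos)
  have hl0 : (l : 𝓞 K) ≠ 0 := Nat.cast_ne_zero.mpr hl.ne_zero
  have hN : absNorm (span {(l : 𝓞 K)}) = l ^ 2 := by
    rw [absNorm_span_natCast, RingOfIntegers.rank, hK]
  have hunit : ∀ x : 𝓞 K, absNorm (span {x}) = 1 → IsUnit x := fun x hx =>
    span_singleton_eq_top.mp (absNorm_eq_one_iff.mp hx)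
  have hirr : Irreducible (l : 𝓞 K) := by
    refine irreducible_iff.mpr ⟨fun hu => ?_, fun x y e => ?_⟩
    · rw [span_singleton_eq_top.mpr hu, Ideal.absNorm_top] at hN
      exact hl.ne_one ((pow_eq_one_iff_left two_ne_zero).mp hN.symm)
    rw [e, ← span_singleton_mul_span_singleton, map_mul] at hN
    obtain ⟨i, hi, hix⟩ := (Nat.dvd_prime_pow hl).mp ⟨_, hN.symm⟩
    interval_cases i
    · exact Or.inl (hunit x (by simpa using hix))
    · exact absurd (by simpa [absNorm_span_singleton] using hix) (norm_ne_of_lt hp hl hlp hK hs x)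
    · refine Or.inr (hunit y (mul_left_cancel₀ (pow_ne_zero 2 hl.ne_zero) ?_))
      rw [mul_one, ← hix]
      exact hix ▸ hN
  have hprime : Prime (l : 𝓞 K) := irreducible_iff_prime.mp hirr
  obtain ⟨n, hn⟩ := h
  have key : ∀ b' : ℤ, b' ^ 2 = (b : ℤ) ^ 2 → b' ≠ 0 → ∃ x : 𝓞 K, (x : K) = (a + b' * s) / 2 :=
    fun b' hb' hb0 => by
      obtain ⟨x, hx, -⟩ := FA.ClassOneField.exists_element hK hd hs hb0 (a := a) (l := l * n) (by
        rw [hb']; push_cast
        have : ((a ^ 2 + p * b ^ 2 : ℕ) : ℤ) = ((4 * l * n : ℕ) : ℤ) := by rw [hn]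
        push_cast at this
        linear_combination this)
      exact ⟨x, by rw [hx, Int.cast_natCast]⟩
  obtain ⟨x, hx⟩ := key b rfl (Int.natCast_ne_zero.mpr hb)
  obtain ⟨y, hy⟩ := key (-b) (neg_sq _) (neg_ne_zero.mpr (Int.natCast_ne_zero.mpr hb))
  push_cast at hx hy
  have hxy : (l : 𝓞 K) ∣ x * y := ⟨(n : 𝓞 K), RingOfIntegers.coe_injective (by
    have h' : (a : K) ^ 2 + (p : K) * (b : K) ^ 2 = 4 * l * n := by exact_mod_cast hn
    rw [map_mul, map_mul, show algebraMap (𝓞 K) K x = _ from hx,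
      show algebraMap (𝓞 K) K y = _ from hy, map_natCast, map_natCast]
    push_cast at hs ⊢
    linear_combination (1 / 4 : K) * h' - (b : K) ^ 2 / 4 * hs)⟩
  have fin : ∀ z : 𝓞 K, ∀ c : ℤ, (z : K) = ((a : K) + (c : K) * s) / 2 →
      (l : 𝓞 K) ∣ z → l ∣ a := by
    intro z c hz ⟨t, ht⟩
    have htK : (t : K) = (((a : ℚ) / (2 * l) : ℚ) : K) + (((c : ℚ) / (2 * l) : ℚ) : K) * s := by
      have hlK : (l : K) ≠ 0 := Nat.cast_ne_zero.mpr hl.ne_zero
      rw [ht, show (((l : 𝓞 K) * t : 𝓞 K) : K) = (l : K) * (t : K) by simp] at hz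
      push_cast
      field_simp
      linear_combination 2 * hz
    obtain ⟨-, m, hm⟩ := norm_trace_int hK hd hs htK
    have hlQ : (l : ℚ) ≠ 0 := Nat.cast_ne_zero.mpr hl.ne_zero
    field_simp at hm
    exact Int.natCast_dvd_natCast.mp ⟨m, by exact_mod_cast hm⟩
  rcases hprime.dvd_or_dvd hxy with h' | h'
  · exact fin x b (by push_cast; exact hx) h'
  · exact fin y (-b) (by push_cast; exact hy) h'

set_option synthInstance.maxSize 2000 in
/-- The witnesses below `1000`. -/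
theorem witness : ∀ p < 1000, p % 4 = 3 → p.Prime → p ∉ ({3, 7, 11, 19, 43, 67, 163} : Finset ℕ) →
    ∃ l < 14, l.Prime ∧ 4 * l < p ∧
      ∃ a < 2 * l, ∃ b < 3, b ≠ 0 ∧ (a ^ 2 + p * b ^ 2) % (4 * l) = 0 ∧ a % l ≠ 0 := by
  decide +kernel

/-- **Class number one below `1000`**: only `p = 3, 7, 11, 19, 43, 67, 163`. -/
theorem eq_of_classNumber_one {p : ℕ} (hp : p.Prime) (hp4 : p % 4 = 3) (hlt : p < 1000)
    (hK : finrank ℚ K = 2) (hs : s ^ 2 = ((-(p : ℤ) : ℤ) : K)) (h1 : classNumber K = 1) :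
    p ∈ ({3, 7, 11, 19, 43, 67, 163} : Finset ℕ) := by
  by_contra hnot
  obtain ⟨l, -, hl, hlp, a, -, b, -, hb, hdvd, hla⟩ := witness p hlt hp4 hp hnot
  exact hla (Nat.mod_eq_zero_of_dvd
    (not_dvd_norm hp hl hlp hK hs h1 hb (Nat.dvd_of_mod_eq_zero hdvd)))

end FA.ExceptionalIsCM

end
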