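import Mathlib.Tactic
import Mathlib.RingTheory.Int.Basic
import Mathlib.RingTheory.Coprime.Lemmas

/-!
# Heegner's equation `2 z² = a (a³ - 1)`

Only `a = 0, 1, -1, -2`: by coprimality it splits into `k⁶ ± 1 = 2 m²` and `8 k⁶ ± 1 = m²`, and
these by squares strictly between consecutive squares.
-/

set_option autoImplicit false

namespace FA.ExceptionalIsCM

/-- Divisibility along an equality. -/
theorem dvd_congr_right' {q x y : ℤ} (h : q ∣ x) (e : x = y) : q ∣ y := e ▸ h

/-- Nothing lies strictly between consecutive squares. -/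
theorem false_of_between {t c : ℤ} (hc : 0 ≤ c) (h1 : c ^ 2 < t ^ 2) (h2 : t ^ 2 < (c + 1) ^ 2) :
    False := by
  rcases le_total 0 t with h | h
  · have : c < t := by nlinarith
    have : t < c + 1 := by nlinarith
    omega
  · have : c < -t := by nlinarith
    have : -t < c + 1 := by nlinarith
    omega

/-- Coprime factors of a nonnegative square are squares. -/
theorem exists_sq_left {x y m : ℤ} (hx : 0 ≤ x) (hxy : IsCoprime x y) (h : x * y = m ^ 2) :
    ∃ t : ℤ, x = t ^ 2 := by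
  obtain ⟨t, ht | ht⟩ := Int.sq_of_isCoprime hxy h
  · exact ⟨t, ht⟩
  · exact ⟨0, by nlinarith [sq_nonneg t]⟩

/-- A common prime factor shows failure of coprimality. -/
theorem isCoprime_of_dvd_three {x y : ℤ} (h : ∀ q : ℤ, q ∣ x → q ∣ y → q ∣ 3)
    (h3 : ¬ (3 : ℤ) ∣ x) : IsCoprime x y := by
  rw [Int.isCoprime_iff_gcd_eq_one]
  have hd : (Int.gcd x y : ℤ) ∣ 3 := h _ (Int.gcd_dvd_left x y) (Int.gcd_dvd_right x y)
  rcases (Nat.dvd_prime Nat.prime_three).mp (Int.natCast_dvd_natCast.mp (by exact_mod_cast hd)) with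
    e | e
  · exact e
  · exact absurd (by simpa [e] using Int.gcd_dvd_left x y) h3

theorem three_not_dvd_sq_add_one (k : ℤ) : ¬ (3 : ℤ) ∣ k ^ 2 + 1 := fun h => by
  have h' := (ZMod.intCast_zmod_eq_zero_iff_dvd _ 3).mpr h
  push_cast at h'
  generalize (k : ZMod 3) = z at h'
  revert h'
  revert z
  decide

/-- `k⁶ + 1 = 2 m²` only for `k = ±1`. -/
theorem sq_eq_one_of_add {k m : ℤ} (h : k ^ 6 + 1 = 2 * m ^ 2) : k ^ 2 = 1 := by
  obtain ⟨r, rfl | rfl⟩ := Int.even_or_odd' k
  · exfalso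
    have : (2 : ℤ) ∣ 1 := ⟨m ^ 2 - 32 * r ^ 6, by linear_combination h⟩
    norm_num at this
  set u : ℤ := 2 * r + 1 with hu
  have hprod : (u ^ 4 - u ^ 2 + 1) * (2 * r ^ 2 + 2 * r + 1) = m ^ 2 := by
    refine mul_left_cancel₀ (two_ne_zero (α := ℤ)) ?_
    linear_combination (norm := (simp only [hu]; ring)) h
  have hodd : u ^ 2 + 1 = 2 * (2 * r ^ 2 + 2 * r + 1) := by rw [hu]; ring
  obtain ⟨t, ht⟩ := exists_sq_left (by nlinarith [sq_nonneg (u ^ 2 - 1), sq_nonneg u])
    (isCoprime_of_dvd_three (fun q hq hq' => by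
      exact dvd_congr_right' (dvd_sub hq (hq'.mul_left (2 * (u ^ 2 - 2)))) (by rw [hu]; ring))
      (fun h3 => three_not_dvd_sq_add_one u (by
        have h' := dvd_congr_right' (dvd_sub h3 (dvd_mul_right (3 : ℤ) 1))
          (show u ^ 4 - u ^ 2 + 1 - 3 * 1 = (u ^ 2 + 1) * (u ^ 2 - 2) by ring)
        rcases Int.Prime.dvd_mul' (p := 3) Nat.prime_three h' with h' | h'
        · exact h'
        · exact dvd_congr_right' (dvd_add h' (dvd_refl (3 : ℤ))) (by ring)))) hprod
  by_contra hne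
  have h1 : 2 ≤ u ^ 2 := by
    have : 0 < u ^ 2 := pow_two_pos_of_ne_zero (by omega)
    omega
  exact false_of_between (t := t) (c := u ^ 2 - 1) (by omega) (by nlinarith) (by nlinarith)

/-- `k⁶ - 1 = 2 m²` only for `k = ±1`. -/
theorem sq_eq_one_of_sub {k m : ℤ} (h : k ^ 6 - 1 = 2 * m ^ 2) : k ^ 2 = 1 := by
  obtain ⟨r, rfl | rfl⟩ := Int.even_or_odd' k
  · exfalso
    have : (2 : ℤ) ∣ 1 := ⟨32 * r ^ 6 - m ^ 2, by linear_combination -h⟩
    norm_num at this
  suffices H : ∀ r : ℤ, (2 * r + 1) ^ 6 - 1 = 2 * m ^ 2 →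
      ¬ (3 : ℤ) ∣ (2 * r + 1) ^ 2 + (2 * r + 1) + 1 → (2 * r + 1) ^ 2 = 1 by
    by_cases h3 : (3 : ℤ) ∣ (2 * r + 1) ^ 2 + (2 * r + 1) + 1
    · have := H (-r - 1) (by linear_combination h) fun h3' => by
        have hsum := dvd_sub h3 h3'
        have h' : (3 : ℤ) ∣ 2 * (2 * r + 1) := dvd_congr_right' hsum (by ring)
        rcases Int.Prime.dvd_mul' (p := 3) Nat.prime_three h' with h' | h'
        · norm_num at h'
        · have := dvd_sub h3 (h'.mul_right (2 * r + 2))
          ring_nf at this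
          norm_num at this
      linear_combination this
    · exact H r h h3
  intro r h h3
  set u : ℤ := 2 * r + 1 with hu
  have hprod : (u ^ 2 + u + 1) * (2 * (r ^ 2 + r) * (u ^ 2 - u + 1)) = m ^ 2 := by
    refine mul_left_cancel₀ (two_ne_zero (α := ℤ)) ?_
    linear_combination (norm := (simp only [hu]; ring)) h
  obtain ⟨t, ht⟩ := exists_sq_left (by nlinarith [sq_nonneg (u + 1), sq_nonneg u])
    ((isCoprime_of_dvd_three (fun q hq hq' => by
        -- `q` divides both `u² + u + 1` and `(u² - 1) / 2`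
        have h4 : q ∣ u + 2 :=
          dvd_congr_right' (dvd_sub hq (hq'.mul_left 2)) (by rw [hu]; ring)
        exact dvd_congr_right' (dvd_sub (h4.mul_left 3) (dvd_sub (dvd_pow h4 two_ne_zero) hq))
          (by ring)) h3).mul_right (by
      refine Int.isCoprime_iff_gcd_eq_one.mpr ?_
      set g := (u ^ 2 + u + 1).gcd (u ^ 2 - u + 1) with hg
      have ha : (g : ℤ) ∣ u ^ 2 + u + 1 := Int.gcd_dvd_left _ _
      have hb : (g : ℤ) ∣ u ^ 2 - u + 1 := Int.gcd_dvd_right _ _
      have h2u : (g : ℤ) ∣ 2 * u := dvd_congr_right' (dvd_sub ha hb) (by ring)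
      have h2 : (g : ℤ) ∣ 2 :=
        dvd_congr_right' (dvd_sub (ha.mul_left 2) (h2u.mul_right (u + 1))) (by ring)
      have hgo : ¬ (2 : ℤ) ∣ g := fun h => by
        obtain ⟨c, hc⟩ := h.trans ha
        have : (2 : ℤ) ∣ 1 := ⟨c - (2 * r ^ 2 + 3 * r + 1), by rw [hu] at hc; linear_combination hc⟩
        norm_num at this
      rcases (Nat.dvd_prime Nat.prime_two).mp (Int.natCast_dvd_natCast.mp (by exact_mod_cast h2))
        with e | e
      · exact e
      · exact absurd (by simp [e]) hgo)) hprod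
  by_contra hne
  rcases lt_trichotomy u 0 with hu0 | hu0 | hu0
  · exact false_of_between (t := t) (c := -u - 1) (by omega)
      (by nlinarith) (by
        have : u ≤ -2 := by
          rcases eq_or_ne u (-1) with e | e
          · exact absurd (by rw [e]; norm_num) hne
          · omega
        nlinarith)
  · omega
  · exact false_of_between (t := t) (c := u) (by omega) (by nlinarith) (by nlinarith)

/-- Coprime factors of a sixth power. -/
theorem exists_pow_of_mul {x y k : ℕ} (hxy : Nat.Coprime x y) (h : x * y = k ^ 6) :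
    (∃ u, x = u ^ 6) ∧ ∃ v, y = v ^ 6 := by
  have hg : ∀ {a b : ℕ}, Nat.Coprime a b → IsUnit (GCDMonoid.gcd a b) := fun hc =>
    Nat.isUnit_iff.mpr hc
  exact ⟨exists_eq_pow_of_mul_eq_pow (hg hxy) h,
    exists_eq_pow_of_mul_eq_pow (hg hxy.symm) ((mul_comm y x).trans h)⟩

/-- `8 k⁶ + 1 = m²` only for `|k| ≤ 1`. -/
theorem sq_le_one_of_square {k m : ℤ} (h : 8 * k ^ 6 + 1 = m ^ 2) : k ^ 2 ≤ 1 := by
  obtain ⟨n, hn⟩ : ∃ n : ℕ, m.natAbs = 2 * n + 1 := by
    obtain ⟨n, hn⟩ | hodd := Nat.even_or_odd m.natAbs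
    · exfalso
      have he : m ^ 2 = ((m.natAbs : ℤ)) ^ 2 := (Int.natAbs_sq m).symm
      rw [hn] at he
      push_cast at he
      have : (2 : ℤ) ∣ 1 := ⟨2 * (n : ℤ) ^ 2 - 4 * k ^ 6, by linear_combination h + he⟩
      norm_num at this
    · exact hodd
  have hnk : n * (n + 1) = 2 * k.natAbs ^ 6 := by
    have he : m ^ 2 = ((m.natAbs : ℤ)) ^ 2 := (Int.natAbs_sq m).symm
    rw [hn] at he
    push_cast at he
    have : ((n * (n + 1) : ℕ) : ℤ) = ((2 * k.natAbs ^ 6 : ℕ) : ℤ) := by
      push_cast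
      rw [show |k| ^ 6 = k ^ 6 from (Even.pow_abs ⟨3, rfl⟩ k)]
      linarith
    exact_mod_cast this
  suffices hn1 : n ≤ 1 by
    have hk : k.natAbs ^ 6 ≤ 1 := by nlinarith
    have : k.natAbs ≤ 1 := by
      by_contra hlt
      have : 2 ^ 6 ≤ k.natAbs ^ 6 := Nat.pow_le_pow_left (by omega) 6
      omega
    rw [← Int.natAbs_sq]
    exact_mod_cast (pow_le_pow_left₀ (Nat.zero_le _) this 2).trans (one_pow 2).le
  obtain ⟨c, hc | hc⟩ := Nat.even_or_odd' n
  · subst hc
    obtain ⟨⟨v, hv⟩, u, hu⟩ := exists_pow_of_mul (x := c) (y := 2 * c + 1) (k := k.natAbs)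
      (by simp [Nat.coprime_mul_left_add_right]) (by linarith)
    have := sq_eq_one_of_sub (k := u) (m := (v : ℤ) ^ 3) (by
      have : ((2 * c + 1 : ℕ) : ℤ) = ((u ^ 6 : ℕ) : ℤ) := by rw [hu]
      rw [hv] at this; push_cast at this; linear_combination -this)
    have hu1 : u = 1 := by nlinarith [(by exact_mod_cast this : u ^ 2 = 1)]
    subst hu1
    omega
  · subst hc
    obtain ⟨⟨u, hu⟩, v, hv⟩ := exists_pow_of_mul (x := 2 * c + 1) (y := c + 1) (k := k.natAbs)
      (by
        have : 2 * c + 1 = c + (c + 1) := by ring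
        rw [this, Nat.coprime_add_self_left]
        simp) (by linarith)
    have := sq_eq_one_of_add (k := u) (m := (v : ℤ) ^ 3) (by
      have h1 : ((2 * c + 1 : ℕ) : ℤ) = ((u ^ 6 : ℕ) : ℤ) := by rw [hu]
      have h2 : ((c + 1 : ℕ) : ℤ) = ((v ^ 6 : ℕ) : ℤ) := by rw [hv]
      push_cast at h1 h2; linear_combination -h1 + 2 * h2)
    have hu1 : u = 1 := by nlinarith [(by exact_mod_cast this : u ^ 2 = 1)]
    subst hu1
    omega

/-- **Heegner's equation.** -/
theorem heegner_solutions {a z : ℤ} (h : 2 * z ^ 2 = a * (a ^ 3 - 1)) :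
    a = 0 ∧ z = 0 ∨ a = 1 ∧ z = 0 ∨ a = -1 ∧ (z = 1 ∨ z = -1) ∨ a = -2 ∧ (z = 3 ∨ z = -3) := by
  have haux : a = 0 ∨ a = 1 ∨ a = -1 ∨ a = -2 := by
    have hco : ∀ x : ℤ, x ∣ a → IsCoprime x (a ^ 3 - 1) := fun x ⟨w, hw⟩ =>
      ⟨w * a ^ 2, -1, by linear_combination a ^ 2 * (-hw)⟩
    obtain ⟨c, rfl | rfl⟩ := Int.even_or_odd' a
    · have hc : c * ((2 * c) ^ 3 - 1) = z ^ 2 := by linarith
      obtain ⟨k, hk | hk⟩ := Int.sq_of_isCoprime (hco c (dvd_mul_left c 2)) hc
      · subst hk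
        rcases eq_or_ne k 0 with rfl | hk0
        · simp
        exfalso
        obtain ⟨m, hm⟩ := exists_sq_left (x := (2 * k ^ 2) ^ 3 - 1) (y := k ^ 2)
          (m := z) (by nlinarith [pow_pos (show (0 : ℤ) < 2 * k ^ 2 by positivity) 3])
          (hco _ (dvd_mul_left _ 2)).symm (by linarith)
        have h4 := congrArg (Int.cast (R := ZMod 4)) hm
        push_cast at h4
        generalize (m : ZMod 4) = y, (k : ZMod 4) = w at h4
        revert h4; revert y w; decide
      · subst hk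
        rcases eq_or_ne k 0 with rfl | hk0
        · simp
        obtain ⟨m, hm⟩ := exists_sq_left (x := 1 - (2 * -k ^ 2) ^ 3) (y := k ^ 2) (m := z)
          (by nlinarith [pow_pos (show (0 : ℤ) < 2 * k ^ 2 by positivity) 3])
          (by
            have := (hco (k ^ 2) ⟨-2, by ring⟩).symm.neg_left
            rwa [neg_sub] at this) (by linarith)
        have := sq_le_one_of_square (k := k) (m := m) (by linear_combination hm)
        have h1 : k ^ 2 = 1 := le_antisymm this (by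
          have : 0 < k ^ 2 := by positivity
          omega)
        omega
    · set a := 2 * c + 1 with ha
      obtain ⟨e, he⟩ : (2 : ℤ) ∣ a ^ 3 - 1 := ⟨4 * c ^ 3 + 6 * c ^ 2 + 3 * c, by rw [ha]; ring⟩
      have hce : IsCoprime a e := (he ▸ hco a dvd_rfl).of_mul_right_right
      have he' : a * e = z ^ 2 := by rw [he] at h; linarith
      obtain ⟨k, hk | hk⟩ := Int.sq_of_isCoprime hce he'
      · rw [hk] at he hce he'
        have h0 : k ≠ 0 := fun h0 => by simp [h0] at hk; omega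
        obtain ⟨m, hm⟩ := exists_sq_left (x := e) (y := k ^ 2) (m := z)
          (by nlinarith [show 1 ≤ (k ^ 2) ^ 3 from one_le_pow₀ (by
            have : 0 < k ^ 2 := by positivity
            omega)])
          hce.symm (by linarith)
        have := sq_eq_one_of_sub (k := k) (m := m) (by linear_combination he + 2 * hm)
        omega
      · rw [hk] at he hce he'
        have h0 : k ≠ 0 := fun h0 => by simp [h0] at hk; omega
        obtain ⟨m, hm⟩ := exists_sq_left (x := -e) (y := k ^ 2) (m := z)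
          (by nlinarith [show 0 ≤ (k ^ 2) ^ 3 by positivity])
          (IsCoprime.neg_left_iff _ _ |>.mpr (IsCoprime.neg_right_iff _ _ |>.mp hce.symm))
          (by linarith)
        have := sq_eq_one_of_add (k := k) (m := m) (by linear_combination -he + 2 * hm)
        omega
  rcases haux with rfl | rfl | rfl | rfl
  · exact Or.inl ⟨rfl, by simpa using h⟩
  · exact Or.inr (Or.inl ⟨rfl, by simpa using h⟩)
  · refine Or.inr (Or.inr (Or.inl ⟨rfl, ?_⟩))
    exact sq_eq_one_iff.mp (by linarith)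
  · refine Or.inr (Or.inr (Or.inr ⟨rfl, ?_⟩))
    exact sq_eq_sq_iff_eq_or_eq_neg.mp (show z ^ 2 = 3 ^ 2 by linarith)

end FA.ExceptionalIsCM
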