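import Fermat.Agent.ExceptionalIsCM.TwoAdic
import Fermat.Agent.ExceptionalIsCM.HeegnerEquation

/-!
# Heegner's descent

With `j = x³` the roots `u` of `u³ - x u - 16` are fourth powers in the cubic field, the square
classes being excluded by the norms, and the fourth roots satisfy `s³ - a' s² + b' s - 2 = 0` with
`2 z² = a (a³ - 1)`, `a' = 2 a`. So `x` is one of six numbers and `p` divides `x³ - 1728`.
-/

set_option autoImplicit false
set_option linter.style.haveILetI false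

noncomputable section

open FA.EC

local notation "Qb" => AlgebraicClosure ℚ
local notation "GQ" => AlgebraicClosure ℚ ≃ₐ[ℚ] AlgebraicClosure ℚ

namespace FA.ExceptionalIsCM

namespace TwoData

variable {A : ℤ × ℤ} {p : ℕ} (D : TwoData A p)

/-- Equivariant functions of the roots. -/
def Equi (w : Fin 3 → Qb) : Prop := ∀ (σ : GQ) k l, σ (D.e k) = D.e l → σ (w k) = w l

variable {D}

theorem Equi.exists_perm {w : Fin 3 → Qb} (h : D.Equi w) (σ : GQ) :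
    ∃ π : Fin 3 ≃ Fin 3, ∀ k, σ (w k) = w (π k) := by
  choose π hπ using D.perm σ
  have hinj : Function.Injective π := fun k l e => D.inj (σ.injective (by rw [hπ, hπ, e]))
  exact ⟨Equiv.ofBijective π ((Finite.injective_iff_bijective).mp hinj), fun k => h σ k _ (hπ k)⟩

theorem Equi.exists_sum {w : Fin 3 → Qb} (h : D.Equi w) : ∃ q : ℚ, (q : Qb) = ∑ k, w k := by
  obtain ⟨q, hq⟩ := mem_range_of_fixed (x := ∑ k, w k) fun σ => by
    obtain ⟨π, hπ⟩ := h.exists_perm σ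
    rw [map_sum]
    exact (Finset.sum_congr rfl fun k _ => hπ k).trans (π.sum_comp w)
  exact ⟨q, (eq_ratCast (algebraMap ℚ Qb) q).symm.trans hq⟩

theorem Equi.exists_prod {w : Fin 3 → Qb} (h : D.Equi w) : ∃ q : ℚ, (q : Qb) = ∏ k, w k := by
  obtain ⟨q, hq⟩ := mem_range_of_fixed (x := ∏ k, w k) fun σ => by
    obtain ⟨π, hπ⟩ := h.exists_perm σ
    rw [map_prod]
    exact (Finset.prod_congr rfl fun k _ => hπ k).trans (π.prod_comp w)
  exact ⟨q, (eq_ratCast (algebraMap ℚ Qb) q).symm.trans hq⟩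

theorem Equi.comp {w : Fin 3 → Qb} (h : D.Equi w) {f : Qb → Qb}
    (hf : ∀ (σ : GQ) x, σ (f x) = f (σ x)) : D.Equi fun k => f (w k) :=
  fun σ k l e => by rw [hf, h σ k l e]

variable (D)

/-- The automorphisms fixing `√-p`, the eighth roots of unity and the roots. -/
def Deep (σ : GQ) : Prop :=
  σ D.s = D.s ∧ (∀ μ : Qb, μ ^ 8 = 1 → σ μ = μ) ∧ ∀ k, σ (D.e k) = D.e k

/-- Fixed by the stabiliser of the first root and of the elements of a list. -/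
def FixBy (L : List Qb) (x : Qb) : Prop :=
  ∀ σ : GQ, σ (D.e 0) = D.e 0 → (∀ y ∈ L, σ y = y) → σ x = x

theorem fixBy_step {y ρ : Qb} {L : List Qb}
    (hy : ∀ σ : GQ, σ y = y ∨ σ y = -y)
    (hρ : ∀ σ : GQ, σ (D.e 0) = D.e 0 → σ ρ = ρ ∨ σ ρ = -ρ) (h : D.FixBy (y :: L) ρ) :
    D.FixBy L ρ ∨ D.FixBy L (ρ * y) := by
  by_cases h0 : D.FixBy L ρ
  · exact Or.inl h0
  simp only [FixBy, not_forall] at h0
  obtain ⟨σ₀, h0e, h0L, h0ρ⟩ := h0
  have h0ρ' : σ₀ ρ = -ρ := (hρ σ₀ h0e).resolve_left h0ρ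
  have h0y : σ₀ y = -y := (hy σ₀).resolve_left fun e =>
    h0ρ (h σ₀ h0e (List.forall_mem_cons.mpr ⟨e, h0L⟩))
  refine Or.inr fun σ he hσL => ?_
  rw [map_mul]
  rcases hy σ with e | e
  · rw [e, h σ he (List.forall_mem_cons.mpr ⟨e, hσL⟩)]
  · have h1 := h (σ₀ * σ) (by rw [AlgEquiv.mul_apply, he, h0e]) (List.forall_mem_cons.mpr
      ⟨by rw [AlgEquiv.mul_apply, e, map_neg, h0y, neg_neg],
        fun z hz => by rw [AlgEquiv.mul_apply, hσL z hz, h0L z hz]⟩)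
    rw [AlgEquiv.mul_apply] at h1
    rcases hρ σ he with e' | e'
    · rw [e'] at h1
      exact absurd h1 h0ρ
    · rw [e', e, neg_mul_neg]

/-- No square class but the trivial one has square cube. -/
theorem class_eq_one (hp : p.Prime) (hp2 : p ≠ 2) {c : ℤ}
    (hc : c ∈ ({1, -1, 2, -2, (p : ℤ), -(p : ℤ), 2 * (p : ℤ), -(2 * (p : ℤ))} : Finset ℤ))
    (hsq : IsSquare (c : ℚ)) : c = 1 := by
  rw [Rat.isSquare_intCast_iff] at hsq
  have hpos := hsq.nonneg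
  have hpp : (0 : ℤ) < p := Int.natCast_pos.mpr hp.pos
  simp only [Finset.mem_insert, Finset.mem_singleton] at hc
  rcases hc with rfl | rfl | rfl | rfl | rfl | rfl | rfl | rfl
  · rfl
  · omega
  · exact absurd hsq Int.prime_two.not_isSquare
  · omega
  · exact absurd hsq (Nat.prime_iff_prime_int.mp hp).not_isSquare
  · omega
  · obtain ⟨k, hk⟩ := hsq
    obtain ⟨m, rfl⟩ : (2 : ℤ) ∣ k := (Int.prime_two.dvd_or_dvd ⟨(p : ℤ), hk.symm⟩).elim id id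
    have h2 : (2 : ℤ) ∣ (p : ℤ) := ⟨m * m, by linarith⟩
    exact absurd ((Nat.prime_dvd_prime_iff_eq Nat.prime_two hp).mp (Int.natCast_dvd_natCast.mp h2))
      (Ne.symm hp2)
  · omega

/-- **Descent of a square root**: if the norm is a square and some square root is fixed by the
deep automorphisms, an equivariant family of square roots has the given norm. -/
theorem exists_sqrt (hp : p.Prime) (hp2 : p ≠ 2) {w : Fin 3 → Qb} (hw : D.Equi w) {N : ℚ}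
    (hN : N ≠ 0) (hprod : ∏ k, w k = (N : Qb) ^ 2) {ρ : Qb} (hρ : ρ ^ 2 = w 0)
    (hfix : ∀ σ : GQ, D.Deep σ → σ ρ = ρ) :
    ∃ f : Fin 3 → Qb, D.Equi f ∧ (∀ k, f k ^ 2 = w k) ∧ ∏ k, f k = (N : Qb) := by
  obtain ⟨i, hi⟩ := IsAlgClosed.exists_pow_nat_eq (-1 : Qb) two_pos
  obtain ⟨t, ht⟩ := IsAlgClosed.exists_pow_nat_eq (2 : Qb) two_pos
  have hpm : ∀ (y : Qb) (z : ℤ), y ^ 2 = (z : Qb) → ∀ σ : GQ, σ y = y ∨ σ y = -y :=
    fun y z hy σ => sq_eq_sq_iff_eq_or_eq_neg.mp (by rw [← map_pow, hy, map_intCast])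
  have hps := hpm _ _ D.hs
  have hpi := hpm i (-1) (by rw [hi]; norm_num)
  have hpt := hpm t 2 (by rw [ht]; norm_num)
  have h3 : D.FixBy [D.s, i, t] ρ := fun σ he hL => by
    simp only [List.forall_mem_cons, List.not_mem_nil, false_imp_iff, implies_true, and_true] at hL
    refine hfix σ ⟨hL.1, fun μ hμ => ?_, D.fixed σ hL.1 he⟩
    set ζ := (t + i * t) / 2 with hζ
    have hζ2 : ζ ^ 2 = i := by
      rw [hζ]
      linear_combination ((1 + i) ^ 2 / 4) * ht + (1 / 2 : Qb) * hi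
    have hprim : IsPrimitiveRoot ζ 8 := by
      rw [IsPrimitiveRoot.iff_orderOf, show (8 : ℕ) = 2 ^ (2 + 1) by norm_num]
      refine orderOf_eq_prime_pow ?_ ?_
      · rw [show (2 : ℕ) ^ 2 = 2 * 2 from rfl, pow_mul, hζ2, hi]
        norm_num
      · rw [show (2 : ℕ) ^ (2 + 1) = 2 * 2 * 2 from rfl, pow_mul, pow_mul, hζ2, hi]
        norm_num
    obtain ⟨n, -, rfl⟩ := hprim.eq_pow_of_pow_eq_one hμ
    rw [map_pow, hζ, map_div₀, map_add, map_mul, map_ofNat, hL.2.1, hL.2.2]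
  have hsgn : ∀ (x : Qb) (c : ℤ), x ^ 2 = (c : Qb) * w 0 →
      ∀ σ : GQ, σ (D.e 0) = D.e 0 → σ x = x ∨ σ x = -x := fun x c hx σ he =>
    sq_eq_sq_iff_eq_or_eq_neg.mp (by rw [← map_pow, hx, map_mul, map_intCast, hw σ 0 0 he])
  obtain ⟨c₁, hc₁, ρ₁, h₁, hρ₁⟩ : ∃ c ∈ ({1, -(p : ℤ)} : Finset ℤ), ∃ x : Qb,
      x ^ 2 = (c : Qb) * w 0 ∧ D.FixBy [i, t] x := by
    rcases D.fixBy_step (L := [i, t]) hps (hsgn ρ 1 (by simpa using hρ)) h3 with h | h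
    · exact ⟨1, by simp, ρ, by simpa using hρ, h⟩
    · exact ⟨-(p : ℤ), by simp, ρ * D.s, by rw [mul_pow, hρ, D.hs]; ring, h⟩
  obtain ⟨c₂, hc₂, ρ₂, h₂, hρ₂⟩ : ∃ c ∈ ({c₁, -c₁} : Finset ℤ), ∃ x : Qb,
      x ^ 2 = (c : Qb) * w 0 ∧ D.FixBy [t] x := by
    rcases D.fixBy_step (L := [t]) hpi (hsgn ρ₁ c₁ h₁) hρ₁ with h | h
    · exact ⟨c₁, by simp, ρ₁, h₁, h⟩
    · exact ⟨-c₁, by simp, ρ₁ * i, by rw [mul_pow, h₁, hi]; push_cast; ring, h⟩
  obtain ⟨c, hc, f₀, h₀, hf₀⟩ : ∃ c ∈ ({c₂, 2 * c₂} : Finset ℤ), ∃ x : Qb,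
      x ^ 2 = (c : Qb) * w 0 ∧ D.FixBy [] x := by
    rcases D.fixBy_step (L := []) hpt (hsgn ρ₂ c₂ h₂) hρ₂ with h | h
    · exact ⟨c₂, by simp, ρ₂, h₂, h⟩
    · exact ⟨2 * c₂, by simp, ρ₂ * t, by rw [mul_pow, h₂, ht]; push_cast; ring, h⟩
  choose τ hτ using D.trans
  have hfe : D.Equi fun k => τ k f₀ := fun σ k l e => by
    have h1 := hf₀ ((τ l).symm * σ * τ k)
      (by rw [AlgEquiv.mul_apply, AlgEquiv.mul_apply, hτ k, e, ← hτ l, AlgEquiv.symm_apply_apply])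
      (fun z hz => absurd hz List.not_mem_nil)
    rw [AlgEquiv.mul_apply, AlgEquiv.mul_apply] at h1
    have h2 := congrArg (τ l) h1
    rwa [AlgEquiv.apply_symm_apply] at h2
  have hfsq : ∀ k, τ k f₀ ^ 2 = (c : Qb) * w k := fun k => by
    rw [← map_pow, h₀, map_mul, map_intCast, hw (τ k) 0 k (hτ k)]
  obtain ⟨F, hF⟩ := hfe.exists_prod
  have hF2 : F ^ 2 = (c : ℚ) ^ 3 * N ^ 2 := by
    have : ((F ^ 2 : ℚ) : Qb) = (((c : ℚ) ^ 3 * N ^ 2 : ℚ) : Qb) := by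
      push_cast
      rw [hF, ← Finset.prod_pow, Finset.prod_congr rfl fun k _ => hfsq k, Finset.prod_mul_distrib,
        hprod, Finset.prod_const, Finset.card_univ, Fintype.card_fin]
    exact_mod_cast this
  have hmem : c ∈ ({1, -1, 2, -2, (p : ℤ), -(p : ℤ), 2 * (p : ℤ), -(2 * (p : ℤ))} : Finset ℤ) := by
    simp only [Finset.mem_insert, Finset.mem_singleton] at hc₁ hc₂ hc ⊢
    rcases hc₁ with rfl | rfl <;> rcases hc₂ with rfl | rfl <;> rcases hc with rfl | rfl <;> omega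
  have hc0 : (c : ℚ) ≠ 0 := by
    have : c ≠ 0 := fun e => by
      simp only [e, Finset.mem_insert, Finset.mem_singleton] at hmem
      have := hp.pos
      omega
    exact_mod_cast this
  have hc1 : c = 1 := class_eq_one hp hp2 hmem ⟨F / (c * N), by
    field_simp
    linear_combination -hF2⟩
  subst hc1
  simp only [Int.cast_one, one_mul, one_pow] at hfsq hF2
  rcases sq_eq_sq_iff_eq_or_eq_neg.mp hF2 with e | e
  · exact ⟨_, hfe, hfsq, by rw [← hF, e]⟩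
  · exact ⟨_, hfe.comp (f := fun x => -x) fun σ x => map_neg σ x,
      fun k => by rw [neg_sq]; exact hfsq k, by
        rw [Fin.prod_univ_three] at hF ⊢
        rw [e] at hF
        push_cast at hF
        linear_combination hF⟩

include D in
/-- **Heegner's descent.** -/
theorem exists_invariant (hp : p.Prime) (hp3 : 3 < p) {r : ℚ}
    (hr : r ^ 3 = 16 * (4 * (A.1 : ℚ) ^ 3 + 27 * (A.2 : ℚ) ^ 2) / 27)
    (hj : ∃ z : ℤ, 6912 * (A.1 : ℚ) ^ 3 = z * (4 * (A.1 : ℚ) ^ 3 + 27 * (A.2 : ℚ) ^ 2)) :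
    ∃ x ∈ ({0, -32, -96, -960, -5280, -640320} : Finset ℤ), (p : ℤ) ∣ x ^ 3 - 1728 := by
  set e := D.e with he
  have d01 : e 0 - e 1 ≠ 0 := sub_ne_zero.mpr (D.inj.ne (by decide))
  have d12 : e 1 - e 2 ≠ 0 := sub_ne_zero.mpr (D.inj.ne (by decide))
  have d20 : e 2 - e 0 ≠ 0 := sub_ne_zero.mpr (D.inj.ne (by decide))
  have hA := D.coeff₁
  have hB := D.coeff₀
  rw [← he] at hA hB
  have he2 : e 2 = -e 0 - e 1 := by linear_combination D.sum
  have hδ : delta e ^ 2 = -(4 * (A.1 : Qb) ^ 3 + 27 * (A.2 : Qb) ^ 2) := by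
    rw [hA, hB, delta, he2]; ring
  have hδ0 : delta e ≠ 0 := mul_ne_zero (mul_ne_zero d01 d12) d20
  -- `√-p` in the discriminant
  have hs0 : D.s ≠ 0 := fun h0 => by
    have := D.hs
    rw [h0, zero_pow two_ne_zero, eq_comm, Int.cast_eq_zero] at this
    omega
  obtain ⟨r₀, hr₀⟩ : ∃ r₀ : ℚ, (r₀ : Qb) = delta e / D.s := by
    obtain ⟨q, hq⟩ := mem_range_of_fixed (x := delta e / D.s) fun σ => by
      rw [map_div₀, div_eq_div_iff ((map_ne_zero σ).mpr hs0) hs0]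
      exact D.delta_smul σ
    exact ⟨q, (eq_ratCast (algebraMap ℚ Qb) q).symm.trans hq⟩
  have hr₀0 : r₀ ≠ 0 := fun h0 => by
    rw [h0, Rat.cast_zero, eq_comm, div_eq_zero_iff] at hr₀
    exact hr₀.elim hδ0 hs0
  have hD0 : 4 * (A.1 : ℚ) ^ 3 + 27 * (A.2 : ℚ) ^ 2 = p * r₀ ^ 2 := by
    have hp' : D.s ^ 2 = -(p : Qb) := by rw [D.hs]; push_cast; rfl
    have h1 : ((r₀ : Qb) * D.s) ^ 2 = delta e ^ 2 := by rw [hr₀, div_mul_cancel₀ _ hs0]
    have : ((4 * (A.1 : ℚ) ^ 3 + 27 * (A.2 : ℚ) ^ 2 : ℚ) : Qb) = ((p * r₀ ^ 2 : ℚ) : Qb) := by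
      push_cast
      linear_combination h1 - (r₀ : Qb) ^ 2 * hp' + hδ
    exact_mod_cast this
  have hpr : (0 : ℚ) < p := Nat.cast_pos.mpr hp.pos
  have hr0 : r ≠ 0 := fun h0 => by
    rw [h0, zero_pow three_ne_zero, hD0] at hr
    have : (p : ℚ) * r₀ ^ 2 ≠ 0 := mul_ne_zero hpr.ne' (pow_ne_zero _ hr₀0)
    exact this (by linarith)
  have hA0 : A.1 ≠ 0 := fun h0 => by
    rw [h0, Int.cast_zero] at hD0
    have hsq : IsSquare ((3 * p : ℤ) : ℚ) := ⟨9 * (A.2 : ℚ) / r₀, by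
      push_cast
      field_simp
      linear_combination -3 * hD0⟩
    rw [Rat.isSquare_intCast_iff] at hsq
    obtain ⟨k, hk⟩ := hsq
    obtain ⟨m, rfl⟩ : (3 : ℤ) ∣ k := (Int.prime_three.dvd_or_dvd ⟨(p : ℤ), hk.symm⟩).elim id id
    have h3 : (3 : ℤ) ∣ (p : ℤ) := ⟨m * m, by linarith⟩
    have := (Nat.prime_dvd_prime_iff_eq Nat.prime_three hp).mp (Int.natCast_dvd_natCast.mp h3)
    omega
  obtain ⟨z, hz⟩ := hj
  obtain ⟨X, hX⟩ : ∃ X : ℤ, (X : ℚ) = 16 * A.1 / r := by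
    have h3 : (16 * (A.1 : ℚ) / r) ^ 3 = z := by
      field_simp
      linear_combination -(z : ℚ) * hr + (16 / 27 : ℚ) * hz
    have hden := congrArg Rat.den h3
    rw [Rat.den_pow, Rat.den_intCast] at hden
    exact ⟨_, Rat.coe_int_num_of_den_eq_one ((pow_eq_one_iff_left three_ne_zero).mp hden)⟩
  have hXr : (X : ℚ) * r = 16 * A.1 := by rw [hX]; field_simp
  -- the three numbers `u`
  have hP : ∀ k : Fin 3, 3 * e k ^ 2 + (A.1 : Qb) ≠ 0 := fun k => by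
    fin_cases k
    · show 3 * e 0 ^ 2 + (A.1 : Qb) ≠ 0
      rw [show 3 * e 0 ^ 2 + (A.1 : Qb) = -((e 0 - e 1) * (e 2 - e 0)) by rw [hA, he2]; ring]
      exact neg_ne_zero.mpr (mul_ne_zero d01 d20)
    · show 3 * e 1 ^ 2 + (A.1 : Qb) ≠ 0
      rw [show 3 * e 1 ^ 2 + (A.1 : Qb) = -((e 0 - e 1) * (e 1 - e 2)) by rw [hA, he2]; ring]
      exact neg_ne_zero.mpr (mul_ne_zero d01 d12)
    · show 3 * e 2 ^ 2 + (A.1 : Qb) ≠ 0
      rw [show 3 * e 2 ^ 2 + (A.1 : Qb) = -((e 1 - e 2) * (e 2 - e 0)) by rw [hA, he2]; ring]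
      exact neg_ne_zero.mpr (mul_ne_zero d12 d20)
  set u : Fin 3 → Qb := fun k => 3 * (r : Qb) / (3 * e k ^ 2 + (A.1 : Qb)) with hu
  have hue : D.Equi u := fun σ k l h => by
    simp only [hu]
    rw [map_div₀, map_mul, map_add, map_mul, map_pow, h, map_ofNat, map_ratCast, map_intCast]
  have hrQ : (r : Qb) ^ 3 = 16 * (4 * (A.1 : Qb) ^ 3 + 27 * (A.2 : Qb) ^ 2) / 27 := by
    exact_mod_cast congrArg (Rat.cast : ℚ → Qb) hr
  have hXQ : (X : Qb) * r = 16 * A.1 := by exact_mod_cast congrArg (Rat.cast : ℚ → Qb) hXr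
  have hr' : (r : Qb) ^ 3 = -(16 / 27 : Qb) * delta e ^ 2 := by rw [hrQ, hδ]; ring
  have hd : (3 * e 0 ^ 2 + (A.1 : Qb)) * (3 * e 1 ^ 2 + (A.1 : Qb)) * (3 * e 2 ^ 2 + (A.1 : Qb)) =
      -delta e ^ 2 := by rw [hA, he2, delta, he2]; ring
  have hu3 : u 0 * u 1 * u 2 = 16 := by
    simp only [hu]
    rw [div_mul_div_comm, div_mul_div_comm, hd, div_eq_iff (neg_ne_zero.mpr (pow_ne_zero _ hδ0))]
    linear_combination 27 * hr'
  have hu1 : u 0 + u 1 + u 2 = 0 := by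
    simp only [hu]
    rw [div_add_div _ _ (hP 0) (hP 1), div_add_div _ _ (mul_ne_zero (hP 0) (hP 1)) (hP 2),
      div_eq_zero_iff]
    left
    rw [hA, he2]
    ring
  have hu2 : u 0 * u 1 + u 0 * u 2 + u 1 * u 2 = -(X : Qb) := by
    simp only [hu]
    have hs' : (3 * e 0 ^ 2 + (A.1 : Qb)) + (3 * e 1 ^ 2 + (A.1 : Qb)) +
        (3 * e 2 ^ 2 + (A.1 : Qb)) = -3 * A.1 := by rw [hA, he2]; ring
    have h0 := hP 0
    have h1 := hP 1
    have h2 := hP 2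
    field_simp
    linear_combination (9 * (r : Qb) ^ 2) * hs' + (X : Qb) * hd +
      (27 / 16 : Qb) * (r : Qb) ^ 2 * hXQ - (27 / 16 : Qb) * (X : Qb) * hr'
  have huint : ∀ k, IsIntegral ℤ (u k) := fun k => by
    refine ⟨Polynomial.X ^ 3 - Polynomial.C X * Polynomial.X - Polynomial.C 16, by monicity!, ?_⟩
    simp only [Polynomial.eval₂_sub, Polynomial.eval₂_mul, Polynomial.eval₂_X_pow,
      Polynomial.eval₂_X, Polynomial.eval₂_C]
    simp only [eq_intCast, Int.cast_ofNat]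
    fin_cases k
    · show u 0 ^ 3 - (X : Qb) * u 0 - 16 = 0
      linear_combination u 0 ^ 2 * hu1 - u 0 * hu2 + hu3
    · show u 1 ^ 3 - (X : Qb) * u 1 - 16 = 0
      linear_combination u 1 ^ 2 * hu1 - u 1 * hu2 + hu3
    · show u 2 ^ 3 - (X : Qb) * u 2 - 16 = 0
      linear_combination u 2 ^ 2 * hu1 - u 2 * hu2 + hu3
  -- a fourth root fixed by the deep automorphisms
  obtain ⟨za, hza, hfa⟩ := D.quarter 0 1 2 (by decide) (by decide) (by decide)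
  obtain ⟨zb, hzb, hfb⟩ := D.quarter 0 2 1 (by decide) (by decide) (by decide)
  rw [← he] at hza hzb
  set s₀ : Qb := u 0 * (za * zb) / 2 with hs₀
  have hs4 : s₀ ^ 4 = u 0 := by
    have hu00 : u 0 ≠ 0 := fun h0 => by rw [h0] at hu3; norm_num at hu3
    have hz : (za * zb) ^ 4 * u 0 ^ 3 = 16 := by
      rw [mul_pow, hza, hzb]
      simp only [hu]
      rw [div_pow, show (3 * (r : Qb)) ^ 3 = -16 * delta e ^ 2 by linear_combination 27 * hr',
        show 3 * e 0 ^ 2 + (A.1 : Qb) = -((e 0 - e 1) * (e 2 - e 0)) by rw [hA, he2]; ring, delta,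
        show e 1 - e 0 = -(e 0 - e 1) by ring, show e 2 - e 1 = -(e 1 - e 2) by ring]
      field_simp
    rw [hs₀, div_pow, mul_pow, div_eq_iff (by norm_num)]
    linear_combination u 0 * hz
  have hs₀fix : ∀ σ : GQ, D.Deep σ → σ s₀ = s₀ := fun σ hσ => by
    rw [hs₀, map_div₀, map_mul, map_mul, hue σ 0 0 (hσ.2.2 0), hfa σ hσ.1 hσ.2.1 hσ.2.2,
      hfb σ hσ.1 hσ.2.1 hσ.2.2, map_ofNat]
  obtain ⟨W, hWe, hW, hW3⟩ := D.exists_sqrt hp (by omega) hue (N := 4) (by norm_num)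
    (by rw [Fin.prod_univ_three, hu3]; norm_num) (ρ := s₀ ^ 2) (by rw [← pow_mul]; exact hs4)
    (fun σ hσ => by rw [map_pow, hs₀fix σ hσ])
  obtain ⟨S, hSe, hS, hS3⟩ : ∃ S : Fin 3 → Qb, D.Equi S ∧ (∀ k, S k ^ 2 = W k) ∧
      ∏ k, S k = ((2 : ℚ) : Qb) := by
    obtain ⟨i, hi⟩ := IsAlgClosed.exists_pow_nat_eq (-1 : Qb) two_pos
    rcases sq_eq_sq_iff_eq_or_eq_neg.mp (show W 0 ^ 2 = (s₀ ^ 2) ^ 2 by
      rw [hW, ← pow_mul]; exact hs4.symm) with h0 | h0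
    · exact D.exists_sqrt hp (by omega) hWe (N := 2) (by norm_num) (by rw [hW3]; norm_num)
        (ρ := s₀) h0.symm hs₀fix
    · exact D.exists_sqrt hp (by omega) hWe (N := 2) (by norm_num) (by rw [hW3]; norm_num)
        (ρ := i * s₀) (by rw [mul_pow, hi, h0]; ring) fun σ hσ => by
          rw [map_mul, hs₀fix σ hσ, hσ.2.1 i (by
            rw [show (8 : ℕ) = 2 * 4 from rfl, pow_mul, hi]; norm_num)]
  have hSint : ∀ k, IsIntegral ℤ (S k) := fun k => by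
    refine IsIntegral.of_pow (show 0 < 4 by norm_num) ?_
    rw [show (4 : ℕ) = 2 * 2 from rfl, pow_mul, hS, hW]
    exact huint k
  have hint : ∀ (q : ℚ) (x : Qb), (q : Qb) = x → IsIntegral ℤ x → ∃ n : ℤ, (n : Qb) = x :=
    fun q x hq hx => by
      have h1 : IsIntegral ℤ (algebraMap ℚ Qb q) := by rw [eq_ratCast, hq]; exact hx
      obtain ⟨n, hn⟩ := IsIntegrallyClosed.isIntegral_iff.mp
        ((isIntegral_algebraMap_iff (algebraMap ℚ Qb).injective).mp h1)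
      exact ⟨n, by rw [← hq, ← hn, eq_intCast, Rat.cast_intCast]⟩
  obtain ⟨q1, hq1⟩ := hSe.exists_sum
  obtain ⟨a, ha⟩ := hint q1 _ hq1 (IsIntegral.sum _ fun k _ => hSint k)
  obtain ⟨q2, hq2⟩ := (hSe.comp (f := fun x => x ^ 2) fun σ x => map_pow σ x 2).exists_sum
  rw [Fin.sum_univ_three] at ha hq1 hq2
  rw [Fin.prod_univ_three, Rat.cast_ofNat] at hS3
  obtain ⟨b, hb⟩ := hint ((q1 ^ 2 - q2) / 2) (S 0 * S 1 + S 0 * S 2 + S 1 * S 2)
    (by push_cast; rw [hq1, hq2]; ring)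
    ((((hSint 0).mul (hSint 1)).add ((hSint 0).mul (hSint 2))).add ((hSint 1).mul (hSint 2)))
  have hu4 : ∀ k, u k = S k ^ 4 := fun k => by rw [show S k ^ 4 = (S k ^ 2) ^ 2 by ring, hS, hW]
  rw [hu4, hu4, hu4] at hu1 hu2
  have E1 : (a ^ 2 - 2 * b) ^ 2 - 2 * (b ^ 2 - 4 * a) = 0 := by
    have : (((a ^ 2 - 2 * b) ^ 2 - 2 * (b ^ 2 - 4 * a) : ℤ) : Qb) = ((0 : ℤ) : Qb) := by
      push_cast
      rw [ha, hb]
      linear_combination hu1 - 4 * (S 0 + S 1 + S 2) * hS3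
    exact_mod_cast this
  have E2 : X = 8 * (a ^ 2 - 2 * b) - (b ^ 2 - 4 * a) ^ 2 := by
    have : (X : Qb) = ((8 * (a ^ 2 - 2 * b) - (b ^ 2 - 4 * a) ^ 2 : ℤ) : Qb) := by
      push_cast
      rw [ha, hb]
      set S' := S 0 + S 1 + S 2 with hS'
      set Q' := S 0 * S 1 + S 0 * S 2 + S 1 * S 2 with hQ'
      set P' := S 0 * S 1 * S 2 with hP'
      linear_combination (norm := (simp only [hS', hQ', hP']; ring))
        hu2 + (2 * (P' + 2) * (S' ^ 2 - 2 * Q') + 4 * S' * (Q' ^ 2 - 2 * S' * P') +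
          4 * S' ^ 2 * (P' - 2)) * hS3
    exact_mod_cast this
  have hmem : X ∈ ({0, -32, -96, -960, -5280, -640320} : Finset ℤ) := by
    obtain ⟨a', rfl⟩ : (2 : ℤ) ∣ a := Int.prime_two.dvd_of_dvd_pow (n := 4)
      ⟨2 * a ^ 2 * b - b ^ 2 - 4 * a, by linear_combination E1⟩
    obtain ⟨z1, hz1⟩ : (2 : ℤ) ∣ b - 4 * a' ^ 2 := Int.prime_two.dvd_of_dvd_pow (n := 2)
      ⟨4 * a' * (a' ^ 3 - 1), by linarith⟩
    obtain ⟨z2, hz2⟩ : (2 : ℤ) ∣ z1 := Int.prime_two.dvd_of_dvd_pow (n := 2)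
      ⟨a' * (a' ^ 3 - 1), mul_left_cancel₀ (show (8 : ℤ) ≠ 0 by norm_num)
        (by linear_combination E1 - 2 * (b - 4 * a' ^ 2 + 2 * z1) * hz1)⟩
    subst hz2
    have hb' : b = 4 * a' ^ 2 + 4 * z2 := by linarith
    subst hb'
    have hh : 2 * z2 ^ 2 = a' * (a' ^ 3 - 1) :=
      mul_left_cancel₀ (show (16 : ℤ) ≠ 0 by norm_num) (by linear_combination E1)
    rcases heegner_solutions hh with
      ⟨rfl, rfl⟩ | ⟨rfl, rfl⟩ | ⟨rfl, rfl | rfl⟩ | ⟨rfl, rfl | rfl⟩ <;>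
      norm_num [E2]
  refine ⟨X, hmem, ?_⟩
  have hM : ((216 * (A.2 : ℚ) / r₀) ^ 2) = ((-(p * (X ^ 3 - 1728)) : ℤ) : ℚ) := by
    push_cast
    rw [hX]
    field_simp
    linear_combination -(6912 * (A.1 : ℚ) ^ 3) * hr -
      (4096 * (A.1 : ℚ) ^ 3 - 1728 * r ^ 3) * hD0
  have hden := congrArg Rat.den hM
  rw [Rat.den_pow, Rat.den_intCast] at hden
  rw [← Rat.coe_int_num_of_den_eq_one ((pow_eq_one_iff_left two_ne_zero).mp hden), ← Int.cast_pow,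
    Int.cast_inj] at hM
  obtain ⟨k, hk⟩ : (p : ℤ) ∣ (216 * (A.2 : ℚ) / r₀).num :=
    (Nat.prime_iff_prime_int.mp hp).dvd_of_dvd_pow
      (n := 2) ⟨-(X ^ 3 - 1728), by linear_combination hM⟩
  rw [hk] at hM
  exact ⟨-k ^ 2, mul_left_cancel₀ (Int.natCast_ne_zero.mpr hp.ne_zero)
    (by linear_combination hM)⟩

end TwoData

end FA.ExceptionalIsCM

end
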