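import Fermat.Agent.Root.SummaryModularityTwistClass
import Fermat.Agent.Root.SummaryPrimesForms
import Fermat.Agent.Root.SummaryExceptionalStructure
import Fermat.Agent.Root.SummaryDeuringExceptional
import Fermat.Agent.Root.SummaryAlmostAllSurjective

/-!
# Frobenius elements with `4 q = a² + p b²` and `b` prime to `ℓ`

For `ℓ` prime to `(p + 1) / 4` the form `ℓ² x² + ℓ x y + (p + 1) / 4 y²` is primitive, so it
represents infinitely many primes `q`, with `4 q = (2 ℓ x + y)² + p y²` and `ℓ ∤ y`. At the good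
ones an exceptional curve has `a_q = ±(2 ℓ x + y)`.
-/

set_option autoImplicit false
set_option linter.style.haveILetI false

noncomputable section

open Matrix WeierstrassCurve WeierstrassCurve.Affine FA.EC FA.Frob FA.RT FA.RT.Tate
open FA.AlmostAll (shortInt shortRat shortInt_isIntegralModelOf)
open scoped WeierstrassCurve.Affine

local notation "GQ" => AlgebraicClosure ℚ ≃ₐ[ℚ] AlgebraicClosure ℚ

namespace FA.ExceptionalIsCM

/-- Primes `q` with `4 q = (2 ℓ x + y)² + p y²` and `ℓ ∤ y`. -/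
theorem exists_prime {p q₀ ℓ : ℕ} (hp : p + 1 = 4 * q₀) (hℓ : ℓ.Prime) (hq₀ : ¬ ℓ ∣ q₀)
    (S : Finset ℕ) :
    ∃ (q : ℕ) (x y : ℤ), q.Prime ∧ q ∉ S ∧ q ≠ 2 ∧ q ≠ ℓ ∧ ¬ (ℓ : ℤ) ∣ y ∧
      4 * (q : ℤ) = (2 * ℓ * x + y) ^ 2 + p * y ^ 2 := by
  have hp' : (p : ℤ) + 1 = 4 * q₀ := by exact_mod_cast hp
  have hl2 := hℓ.two_le
  have hinf := FA.Summary.infinite_primes_primitive_form ((ℓ : ℤ) ^ 2) ℓ q₀ (by positivity)
    (by
      have h1 : (1 : ℤ) ≤ q₀ := by omega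
      have h2 : (0 : ℤ) < (ℓ : ℤ) ^ 2 := by positivity
      nlinarith)
    (by
      have h1 : Int.gcd ((ℓ : ℤ) ^ 2) ℓ = ℓ := by
        rw [← Nat.cast_pow, Int.gcd_natCast_natCast]
        exact Nat.gcd_eq_right (dvd_pow_self ℓ two_ne_zero)
      rw [h1, Int.gcd_natCast_natCast]
      exact hℓ.coprime_iff_not_dvd.mpr hq₀)
  obtain ⟨q, hqmem, hqS⟩ := hinf.exists_notMem_finset (S ∪ {2, ℓ})
  obtain ⟨hq, x, y, hxy⟩ := hqmem
  simp only [Finset.mem_union, Finset.mem_insert, Finset.mem_singleton, not_or] at hqS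
  refine ⟨q, x, y, hq, hqS.1, hqS.2.1, hqS.2.2, fun hdvd => ?_,
    by linear_combination (4 : ℤ) * hxy - y ^ 2 * hp'⟩
  obtain ⟨z, rfl⟩ := hdvd
  have hsq : (ℓ : ℤ) * ℓ ∣ (q : ℤ) := ⟨x ^ 2 + x * z + q₀ * z ^ 2, by rw [hxy]; ring⟩
  have hsq' : ℓ * ℓ ∣ q := by exact_mod_cast hsq
  have := hq.squarefree ℓ hsq'
  exact hℓ.ne_one (Nat.isUnit_iff.mp this)

variable {A : ℤ × ℤ} [(ratCurve (shortInt A)).IsElliptic] [(shortRat A).IsElliptic] {p : ℕ}

/-- **A Frobenius element**: trace `a`, determinant `q`, `4 q = a² + p b²`, `ℓ ∤ b`, and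
`a ≡ ± b` modulo `ℓ`. -/
theorem exists_frobenius (hp : p.Prime) (hp3 : 3 < p) {q₀ ℓ : ℕ} (hq : p + 1 = 4 * q₀)
    [hℓ : Fact ℓ.Prime] (hℓq : ¬ ℓ ∣ q₀)
    (h : ∀ l : ℕ, ∀ [Fact l.Prime], (∃ C : VariableChange ℚ_[l],
      HasGoodReduction ℤ_[l] (C • (shortRat A).map (algebraMap ℚ ℚ_[l]))) →
        ¬ IsSquare ((-(p : ℤ) : ℤ) : ZMod l) → (shortRat A).LFunction l = 0)
    (B : TateBasis ℓ (shortInt A)) :
    ∃ (g : GQ) (q a b : ℤ), (B.rep g).trace = (a : ℤ_[ℓ]) ∧ (B.rep g).det = (q : ℤ_[ℓ]) ∧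
      4 * q = a ^ 2 + p * b ^ 2 ∧ a ≠ 0 ∧ ¬ (ℓ : ℤ) ∣ b ∧ (ℓ : ℤ) ∣ a ^ 2 - b ^ 2 := by
  have hW := shortInt_isIntegralModelOf A
  have hd : Squarefree (-(p : ℤ)) := by
    rw [← Int.squarefree_natAbs, Int.natAbs_neg, Int.natAbs_natCast]
    exact hp.squarefree
  obtain ⟨q, x, y, hqp, hqS, hq2, hqℓ, hy, he⟩ :=
    exists_prime hq hℓ.out hℓq ((shortInt A).Δ.natAbs.primeFactors ∪ {p})
  simp only [Finset.mem_union, Finset.mem_singleton, not_or] at hqS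
  haveI := Fact.mk hqp
  have hg : (shortInt A).IsGoodPrimeFor q := fun hdvd => hqS.1 (Nat.mem_primeFactors.mpr
    ⟨hqp, Int.natCast_dvd.mp hdvd, Int.natAbs_ne_zero.mpr (Δ_ne_zero_of_model hW)⟩)
  have hgood := FA.Exceptional.exists_good_reduction hW q hg
  have hy' : ((y : ℤ) : ZMod q) ≠ 0 := fun h0 => by
    obtain ⟨w, rfl⟩ := (ZMod.intCast_zmod_eq_zero_iff_dvd y q).mp h0
    obtain ⟨v, hv⟩ : (q : ℤ) ∣ 2 * ℓ * x + q * w := by
      refine (Nat.prime_iff_prime_int.mp hqp).dvd_of_dvd_pow (n := 2) ⟨4 - p * q * w ^ 2, ?_⟩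
      linear_combination -he
    have h4 : (q : ℤ) ∣ 4 := ⟨v ^ 2 + p * w ^ 2, mul_left_cancel₀
      (Int.natCast_ne_zero.mpr hqp.ne_zero)
      (by linear_combination he + (2 * ℓ * x + q * w + q * v) * hv)⟩
    have h4' : q ∣ 2 ^ 2 := by exact_mod_cast h4
    exact hq2 ((Nat.prime_dvd_prime_iff_eq hqp Nat.prime_two).mp (hqp.dvd_of_dvd_pow h4'))
  have hsq : IsSquare ((-(p : ℤ) : ℤ) : ZMod q) := by
    refine ⟨((2 * ℓ * x + y : ℤ) : ZMod q) / (y : ZMod q), ?_⟩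
    rw [div_mul_div_comm, eq_div_iff (mul_ne_zero hy' hy')]
    have h0 := congrArg (Int.cast (R := ZMod q)) he
    push_cast at h0 ⊢
    rw [ZMod.natCast_self] at h0
    linear_combination h0
  obtain ⟨hzero, -, heq⟩ :=
    FA.Summary.exceptional_deuring (shortRat A) hd (by omega) h q hq2 hgood
  obtain ⟨b, hb, hab⟩ := heq hsq
  rw [abs_of_neg (neg_lt_zero.mpr (Int.natCast_pos.mpr hp.pos)), neg_neg,
    FA.Root.LFunction_apply_prime _ _ hW hqp hg] at hab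
  have ha := FA.ModularClass.sq_eq_of_norm hd (by omega) (by omega) (by omega) hqp hq2
    (a := 2 * ℓ * x + y) (b := y) (a' := (shortInt A).apOfModel q) (b' := b)
    (by linear_combination -he) (by linear_combination -hab)
  have hbb : b ^ 2 = y ^ 2 := mul_left_cancel₀ (Int.natCast_ne_zero.mpr hp.ne_zero)
    (by linear_combination he - hab - ha)
  obtain ⟨O, hO⟩ := FA.Deform.exists_liesOverPrime hqp
  obtain ⟨g, hgf⟩ := FA.Deform.exists_isFrobeniusAt hqp hO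
  refine ⟨g, q, (shortInt A).apOfModel q, b, (B.rep_frobenius hqp hO hqℓ hg hgf).1, by
    rw [Int.cast_natCast]; exact (B.rep_frobenius hqp hO hqℓ hg hgf).2, hab, fun h0 => ?_,
    fun hdvd => hy ?_, ⟨4 * x * (ℓ * x + y), by linear_combination ha - hbb⟩⟩
  · rw [← FA.Root.LFunction_apply_prime _ _ hW hqp hg] at h0
    exact hzero.mp h0 hsq
  · exact Int.Prime.dvd_pow' hℓ.out (hbb ▸ dvd_pow hdvd two_ne_zero)

end FA.ExceptionalIsCM

end
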