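import Mathlib.AlgebraicGeometry.EllipticCurve.Affine.Point
import Mathlib.Algebra.CharP.Basic
import Mathlib.Tactic

/-!
# Quarters of a point of order two

On `y² = x³ + A x + B` with roots `e₁, e₂, e₃`: if `4 R = (e₂, 0)` then, with
`z = (x(R) + x(5R) - 2 x(2R)) / (2 (x(2R) - e₃))`, one has `z⁴ = (e₂ - e₁) / (e₂ - e₃)`.
-/

set_option autoImplicit false
set_option linter.unusedSectionVars false

noncomputable section

open WeierstrassCurve WeierstrassCurve.Affine

namespace FA.ExceptionalIsCM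

variable {F : Type*} [Field F] [DecidableEq F] {W : WeierstrassCurve F}

/-- The `x`-coordinate, `0` at the origin. -/
def xOf : W.toAffine.Point → F
  | .zero => 0
  | .some x _ _ => x

@[simp] theorem xOf_some {x y : F} (h : W.toAffine.Nonsingular x y) :
    xOf (Affine.Point.some x y h) = x := rfl

omit [DecidableEq F] in
theorem xOf_neg (P : W.toAffine.Point) : xOf (-P) = xOf P := by
  rcases P with _ | ⟨x, y, h⟩
  · rfl
  · rfl

section Short

variable [CharZero F] (h1 : W.a₁ = 0) (h2 : W.a₂ = 0) (h3 : W.a₃ = 0)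
include h1 h2 h3

omit [CharZero F] [DecidableEq F] in
theorem equation_short {x y : F} (h : W.toAffine.Nonsingular x y) :
    y ^ 2 = x ^ 3 + W.a₄ * x + W.a₆ := by
  have := (Affine.equation_iff x y).mp h.1
  simpa [h1, h2, h3] using this

omit [CharZero F] [DecidableEq F] in
theorem negY_short (x y : F) : W.toAffine.negY x y = -y := by
  simp [Affine.negY, h1, h3]

omit [CharZero F] in
theorem two_nsmul_of_zero {x y : F} (h : W.toAffine.Nonsingular x y) (hy : y = 0) :
    2 • Affine.Point.some x y h = 0 := by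
  rw [two_nsmul]
  exact Affine.Point.add_self_of_Y_eq (by rw [negY_short h1 h2 h3, hy, neg_zero])

/-- Doubling. -/
theorem exists_two_nsmul {x y : F} (h : W.toAffine.Nonsingular x y) (hy : y ≠ 0) :
    ∃ y' h', 2 • Affine.Point.some x y h =
      Affine.Point.some (((3 * x ^ 2 + W.a₄) / (2 * y)) ^ 2 - x - x) y' h' := by
  have hne : y ≠ W.toAffine.negY x y := by
    rw [negY_short h1 h2 h3]
    exact fun e => hy (by linear_combination (1 / 2 : F) * e)
  have hl : W.toAffine.slope x x y y = (3 * x ^ 2 + W.a₄) / (2 * y) := by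
    rw [Affine.slope_of_Y_ne rfl hne, negY_short h1 h2 h3]
    simp [h1, h2]
    ring
  have ex : W.toAffine.addX x x ((3 * x ^ 2 + W.a₄) / (2 * y)) =
      ((3 * x ^ 2 + W.a₄) / (2 * y)) ^ 2 - x - x := by
    simp [Affine.addX, h1, h2]
  have e := Affine.Point.add_self_of_Y_ne (h₁ := h) hne
  simp only [hl, ex] at e
  exact ⟨_, _, (two_nsmul _).trans e⟩

/-- A root of `3 x⁴ + 6 A x² + 12 B x - A²` is the abscissa of a point of order three. -/
theorem three_nsmul_of_root {x y : F} (h : W.toAffine.Nonsingular x y)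
    (hroot : 3 * x ^ 4 + 6 * W.a₄ * x ^ 2 + 12 * W.a₆ * x - W.a₄ ^ 2 = 0) :
    3 • Affine.Point.some x y h = 0 := by
  have he := equation_short h1 h2 h3 h
  have hy : y ≠ 0 := fun hy => by
    have hp : 3 * x ^ 2 + W.a₄ = 0 := by
      refine pow_eq_zero_iff two_ne_zero |>.mp ?_
      subst hy
      linear_combination -hroot - 12 * x * he
    rcases ((Affine.nonsingular_iff x y).mp h).2 with e | e
    · exact e (by simpa [h1, h2, hy, eq_comm] using hp)
    · exact e (by simp [h1, h3, hy])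
  obtain ⟨y', h', e⟩ := exists_two_nsmul h1 h2 h3 h hy
  have hx : ((3 * x ^ 2 + W.a₄) / (2 * y)) ^ 2 - x - x = x := by
    field_simp
    linear_combination -hroot - 12 * x * he
  have he' := equation_short h1 h2 h3 h'
  rw [hx] at he'
  rw [succ_nsmul, e]
  rcases sq_eq_sq_iff_eq_or_eq_neg.mp (he'.trans he.symm) with hy' | hy'
  · -- then the double would be the point itself
    exfalso
    have e2 : 2 • Affine.Point.some x y h = Affine.Point.some x y h := by
      rw [e, Affine.Point.some.injEq]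
      exact ⟨hx, hy'⟩
    rw [two_nsmul, add_eq_left] at e2
    exact Affine.Point.some_ne_zero _ e2
  · exact Affine.Point.add_of_Y_eq hx (by rw [negY_short h1 h2 h3]; exact hy')

/-- Adding a point of order two. -/
theorem exists_add_two {x y e : F} (h : W.toAffine.Nonsingular x y)
    (he : W.toAffine.Nonsingular e 0) (hx : x ≠ e) :
    ∃ y' h', Affine.Point.some x y h + Affine.Point.some e 0 he =
      Affine.Point.some ((y / (x - e)) ^ 2 - x - e) y' h' := by
  have e' := Affine.Point.add_of_X_ne (h₁ := h) (h₂ := he) hx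
  have ex : W.toAffine.addX x e (W.toAffine.slope x e y 0) = (y / (x - e)) ^ 2 - x - e := by
    simp [Affine.addX, h1, h2, Affine.slope_of_X_ne hx]
  simp only [ex] at e'
  exact ⟨_, _, e'⟩

/-- **The quarter of a point of order two.** -/
theorem quarter_pow {e₁ e₂ e₃ : F} (hA : W.a₄ = e₁ * e₂ + e₁ * e₃ + e₂ * e₃)
    (hB : W.a₆ = -(e₁ * e₂ * e₃)) (hsum : e₁ + e₂ + e₃ = 0) (h13 : e₁ ≠ e₃) (h23 : e₂ ≠ e₃)
    (he : W.toAffine.Nonsingular e₂ 0) {R : W.toAffine.Point}
    (hR : 4 • R = Affine.Point.some e₂ 0 he) :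
    ((xOf R + xOf (5 • R) - 2 * xOf (2 • R)) / (2 * (xOf (2 • R) - e₃))) ^ 4 =
      (e₂ - e₁) / (e₂ - e₃) := by
  obtain ⟨x, y, h, rfl⟩ : ∃ x y h, R = Affine.Point.some x y h := by
    rcases R with _ | ⟨x, y, h⟩
    · exact absurd (hR.symm.trans (nsmul_zero 4)) (Affine.Point.some_ne_zero _)
    · exact ⟨x, y, h, rfl⟩
  have h44 : 4 • Affine.Point.some x y h = 2 • (2 • Affine.Point.some x y h) := by
    rw [← mul_nsmul]
  have hy : y ≠ 0 := fun hy => by
    rw [h44, two_nsmul_of_zero h1 h2 h3 h hy, nsmul_zero] at hR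
    exact Affine.Point.some_ne_zero _ hR.symm
  obtain ⟨y₁, hP, eP⟩ := exists_two_nsmul h1 h2 h3 h hy
  set c := ((3 * x ^ 2 + W.a₄) / (2 * y)) ^ 2 - x - x with hc
  rw [h44, eP] at hR
  have hy1 : y₁ ≠ 0 := fun hy1 => by
    rw [two_nsmul_of_zero h1 h2 h3 hP hy1] at hR
    exact Affine.Point.some_ne_zero _ hR.symm
  have hx : x ≠ e₂ := fun hx => by
    have := equation_short h1 h2 h3 h
    subst hx
    exact hy (pow_eq_zero_iff two_ne_zero |>.mp (by
      rw [this, hA, hB]
      linear_combination x ^ 2 * hsum))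
  obtain ⟨y₂, hQ, eQ⟩ := exists_two_nsmul h1 h2 h3 hP hy1
  rw [eQ, Affine.Point.some.injEq] at hR
  obtain ⟨y₅, hS, eS⟩ := exists_add_two h1 h2 h3 h he hx
  have e5 : 5 • Affine.Point.some x y h =
      Affine.Point.some x y h + Affine.Point.some e₂ 0 he := by
    rw [show (5 : ℕ) = 4 + 1 from rfl, succ_nsmul', h44, eP, eQ, Affine.Point.some.injEq _ _ _ _ _ _
      |>.mpr hR]
  rw [e5, eS, eP, xOf_some, xOf_some, xOf_some, ← hc]
  have eR := equation_short h1 h2 h3 h
  have eC := equation_short h1 h2 h3 hP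
  -- `x(2P) = e₂` means `(c - e₂)² = (e₂ - e₁)(e₂ - e₃)`
  have hD : (c - e₂) ^ 2 = (e₂ - e₁) * (e₂ - e₃) := by
    have h4 := hR.1
    field_simp at h4
    have : ((c - e₂) ^ 2 - (e₂ - e₁) * (e₂ - e₃)) ^ 2 = 0 := by
      rw [hA] at eC h4
      rw [hB] at eC
      obtain rfl : e₁ = -e₂ - e₃ := by linear_combination hsum
      linear_combination h4 + (8 * c + 4 * e₂) * eC
    exact sub_eq_zero.mp (pow_eq_zero_iff two_ne_zero |>.mp this)
  -- the symmetric function of `R` and `5 R`
  have hS2 : (x + ((y / (x - e₂)) ^ 2 - x - e₂) - 2 * c) ^ 2 =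
      4 * ((c - e₁) * (c - e₃)) := by
    have hx' : x - e₂ ≠ 0 := sub_ne_zero.mpr hx
    rw [hc]
    rw [hA, hB] at eR
    rw [hA]
    obtain rfl : e₁ = -e₂ - e₃ := by linear_combination hsum
    have hy2 : y ^ 2 = (x - (-e₂ - e₃)) * (x - e₂) * (x - e₃) := by linear_combination eR
    field_simp
    simp only [hy2]
    ring
  have hc3 : c - e₃ ≠ 0 := fun h0 => by
    have h0' : c = e₃ := sub_eq_zero.mp h0
    rw [h0'] at hD
    have : (e₂ - e₃) * (e₁ - e₃) = 0 := by linear_combination hD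
    rcases mul_eq_zero.mp this with e | e
    · exact h23 (sub_eq_zero.mp e)
    · exact h13 (sub_eq_zero.mp e)
  have hq : ((c - e₁) / (c - e₃)) ^ 2 = (e₂ - e₁) / (e₂ - e₃) := by
    rw [div_pow, div_eq_div_iff (pow_ne_zero 2 hc3) (sub_ne_zero.mpr h23)]
    linear_combination (e₁ - e₃) * hD
  rw [show (4 : ℕ) = 2 * 2 from rfl, pow_mul, div_pow, hS2, ← hq]
  clear_value c
  congr 1
  field_simp
  ring

end Short

end FA.ExceptionalIsCM
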