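import Fermat.Agent.ExceptionalIsCM.TorsionBasics
import Fermat.Agent.Root.SummaryExceptionalField
import Mathlib.FieldTheory.KummerPolynomial

/-!
# The discriminant of an exceptional curve of `ℚ(√-p)`, `p ≡ 1 mod 3`, is a cube

The image on `E[3]` lies in the normaliser of a non-split Cartan subgroup, a `2`-group, so it
fixes a root of the resolvent `(X - 2 A / 3)³ = 16 (4 A³ + 27 B²) / 27` of the division polynomial.
-/

set_option autoImplicit false
set_option linter.style.haveILetI false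

noncomputable section

open Matrix WeierstrassCurve WeierstrassCurve.Affine FA.EC FA.Frob FA.RT FA.RT.Tate
open FA.AlmostAll (shortInt shortRat shortInt_isIntegralModelOf)
open scoped WeierstrassCurve.Affine

local notation "Qb" => AlgebraicClosure ℚ
local notation "GQ" => AlgebraicClosure ℚ ≃ₐ[ℚ] AlgebraicClosure ℚ

namespace FA.ExceptionalIsCM

/-- Squaring, on the entries. -/
def sq₄ {R : Type*} [CommRing R] (m : R × R × R × R) : R × R × R × R :=
  (m.1 * m.1 + m.2.1 * m.2.2.1, m.1 * m.2.1 + m.2.1 * m.2.2.2,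
    m.2.2.1 * m.1 + m.2.2.2 * m.2.2.1, m.2.2.1 * m.2.1 + m.2.2.2 * m.2.2.2)

theorem sq₄_spec {R : Type*} [CommRing R] (M : Matrix (Fin 2) (Fin 2) R) :
    sq₄ (M 0 0, M 0 1, M 1 0, M 1 1) = ((M * M) 0 0, (M * M) 0 1, (M * M) 1 0, (M * M) 1 1) := by
  simp [sq₄, Matrix.mul_apply, Fin.sum_univ_two]

/-- In the field generated by `g` modulo three every invertible element has order dividing `8`. -/
theorem pow_eight : ∀ a b c d u v : ZMod (3 ^ 1), (a + d) ^ 2 - 4 * (a * d - b * c) = 2 →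
    (u + v * a) * (u + v * d) - v * b * (v * c) ≠ 0 →
    sq₄ (sq₄ (sq₄ (u + v * a, v * b, v * c, u + v * d))) = (1, 0, 0, 1) := by
  decide +kernel

theorem offDiag_ne_zero : ∀ a b c d : ZMod (3 ^ 1),
    (a + d) ^ 2 - 4 * (a * d - b * c) = 2 → b * b = 1 := by decide

theorem disc_eq_two : ∀ P a b : ZMod (3 ^ 1), P = 1 → b ≠ 0 → a ^ 2 = b ^ 2 → -P * b ^ 2 = 2 := by
  decide

/-- Iterating `σ x = c x` with `σ c = c`. -/
theorem pow_apply_mul {σ : GQ} {x c : Qb} (hx : σ x = c * x) (hc : σ c = c) :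
    ∀ n : ℕ, (σ ^ n) x = c ^ n * x
  | 0 => by simp
  | n + 1 => by
    rw [pow_succ', AlgEquiv.mul_apply, pow_apply_mul hx hc n, map_mul, map_pow, hc, hx]
    ring

/-- **The cubic resolvent**: a `2`-group of Galois fixing a root makes `c` a cube. -/
theorem exists_cube_of_fixed {c : ℚ} {r : Qb} (hr : r ^ 3 = (c : Qb))
    (hfix : ∀ σ : GQ, (σ ^ 16) r = r) : ∃ b : ℚ, b ^ 3 = c := by
  by_contra hcon
  push Not at hcon
  have hirr := X_pow_sub_C_irreducible_of_prime Nat.prime_three hcon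
  have hc0 : c ≠ 0 := fun e => hcon 0 (by simp [e])
  have hr0 : r ≠ 0 := fun e => hc0 (by
    rw [e, zero_pow three_ne_zero] at hr
    exact_mod_cast hr.symm)
  obtain ⟨ω, hω⟩ := HasEnoughRootsOfUnity.exists_primitiveRoot Qb 3
  haveI : Normal ℚ Qb := normal_iff.mpr fun x =>
    ⟨Algebra.IsIntegral.isIntegral x, IsAlgClosed.splits _⟩
  have hmin : ∀ x : Qb, x ^ 3 = (c : Qb) →
      Polynomial.X ^ 3 - Polynomial.C c = minpoly ℚ x := fun x hx =>
    minpoly.eq_of_irreducible_of_monic hirr (by simp [hx])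
      (Polynomial.monic_X_pow_sub_C c (by norm_num))
  have horb : ∀ x : Qb, x ^ 3 = (c : Qb) → ∃ σ : GQ, σ r = x := fun x hx => by
    obtain ⟨σ, hσ⟩ := (Normal.minpoly_eq_iff_mem_orbit (E := Qb)).mp
      ((hmin x hx).symm.trans (hmin r hr))
    exact ⟨σ, hσ⟩
  have hω3 : ω ^ 3 = 1 := hω.pow_eq_one
  obtain ⟨σ₁, h1⟩ := horb (ω * r) (by rw [mul_pow, hω3, one_mul, hr])
  obtain ⟨σ₂, h2⟩ := horb (ω ^ 2 * r) (by rw [mul_pow, ← pow_mul, pow_mul', hω3]; simp [hr])
  have himg : ∀ σ : GQ, σ ω = ω ∨ σ ω = ω ^ 2 := fun σ => by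
    obtain ⟨i, hi, hi'⟩ := hω.eq_pow_of_pow_eq_one (ξ := σ ω) (by rw [← map_pow, hω3, map_one])
    interval_cases i
    · exfalso
      rw [pow_zero] at hi'
      exact hω.ne_one (by norm_num) (σ.injective (hi'.symm.trans (map_one σ).symm))
    · exact Or.inl (by rw [← hi', pow_one])
    · exact Or.inr hi'.symm
  have hne : ∀ (σ : GQ) (m : ℕ), m % 3 ≠ 0 → σ r = ω ^ m * r → σ ω ≠ ω := fun σ m hm hσ e => by
    have h16 := pow_apply_mul hσ (by rw [map_pow, e]) 16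
    rw [hfix σ, ← pow_mul] at h16
    have h3 : ω ^ (m * 16) = 1 := mul_right_cancel₀ hr0 (by rw [one_mul]; exact h16.symm)
    have hdvd := (hω.pow_eq_one_iff_dvd _).mp h3
    omega
  have e1 := (himg σ₁).resolve_left (hne σ₁ 1 (by norm_num) (by rw [pow_one]; exact h1))
  have e2 := (himg σ₂).resolve_left (hne σ₂ 2 (by norm_num) h2)
  refine hne (σ₁ * σ₂) 2 (by norm_num) ?_ ?_
  · rw [AlgEquiv.mul_apply, h2, map_mul, map_pow, e1, h1]
    linear_combination ω ^ 2 * r * hω3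
  · rw [AlgEquiv.mul_apply, e2, map_pow, e1]
    linear_combination ω * hω3

section Main

variable {A : ℤ × ℤ} [(ratCurve (shortInt A)).IsElliptic] [(shortRat A).IsElliptic] {p : ℕ}

/-- **The discriminant is a cube.** -/
theorem exists_cube (hp : p.Prime) (hp4 : p % 4 = 3) (hpm : p % 3 = 1) (hp3 : 3 < p)
    (h : ∀ l : ℕ, ∀ [Fact l.Prime], (∃ C : VariableChange ℚ_[l],
      HasGoodReduction ℤ_[l] (C • (shortRat A).map (algebraMap ℚ ℚ_[l]))) →
        ¬ IsSquare ((-(p : ℤ) : ℤ) : ZMod l) → (shortRat A).LFunction l = 0) :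
    ∃ r : ℚ, r ^ 3 = 16 * (4 * (A.1 : ℚ) ^ 3 + 27 * (A.2 : ℚ) ^ 2) / 27 := by
  haveI : Fact (Nat.Prime 3) := ⟨Nat.prime_three⟩
  obtain ⟨hd, -⟩ := FA.Genus.squarefree_and_neg (d := -(p : ℤ))
    (Or.inr (Or.inr ⟨p, hp, hp4, rfl⟩))
  have hE := FA.CMStructure.isExceptional_of_curve (shortInt_isIntegralModelOf A) hd (by omega) h
  obtain ⟨s, hs⟩ := IsAlgClosed.exists_pow_nat_eq ((-(p : ℤ) : ℤ) : Qb) two_pos
  obtain ⟨B⟩ := exists_tateBasis (p := 3) (shortInt A)
  obtain ⟨g, q, a, b, htr, hdet, he, ha0, hb, hab⟩ :=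
    exists_frobenius hp hp3 (q₀ := (p + 1) / 4) (by omega) (by omega) h B
  have hgs : g s = s := fixed_of_trace_ne_zero hE hs B (by rw [htr]; exact Int.cast_ne_zero.mpr ha0)
  set G : Fin 2 → Fin 2 → ZMod (3 ^ 1) := fun i j => PadicInt.toZModPow 1 (B.rep g i j) with hG
  have hGt : G 0 0 + G 1 1 = (a : ZMod (3 ^ 1)) := by
    rw [hG, ← map_add, ← Matrix.trace_fin_two, htr, map_intCast]
  have hGd : G 0 0 * G 1 1 - G 0 1 * G 1 0 = (q : ZMod (3 ^ 1)) := by
    rw [hG, ← map_mul, ← map_mul, ← map_sub, ← Matrix.det_fin_two, hdet, map_intCast]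
  have hdisc : (G 0 0 + G 1 1) ^ 2 - 4 * (G 0 0 * G 1 1 - G 0 1 * G 1 0) = 2 := by
    rw [hGt, hGd]
    have h1 := congrArg (Int.cast (R := ZMod (3 ^ 1))) he
    push_cast at h1
    rw [← disc_eq_two (p : ZMod (3 ^ 1)) (a : ZMod (3 ^ 1)) (b : ZMod (3 ^ 1)) (by
        rw [← ZMod.natCast_mod, show p % 3 ^ 1 = 1 by simpa using hpm, Nat.cast_one])
      (fun e => hb (by simpa using (ZMod.intCast_zmod_eq_zero_iff_dvd b (3 ^ 1)).mp e))
      (by
        have := (ZMod.intCast_zmod_eq_zero_iff_dvd (a ^ 2 - b ^ 2) (3 ^ 1)).mpr (by simpa using hab)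
        push_cast at this
        exact sub_eq_zero.mp this)]
    linear_combination -h1
  -- the sixteenth powers act trivially on `E[3]`
  have h16 : ∀ (σ : GQ) (x : Pts (shortInt A)), 3 • x = 0 → (σ ^ 16) • x = x := by
    intro σ x hx
    have hσ2 : (σ * σ) s = s := by
      rcases (sq_eq_sq_iff_eq_or_eq_neg).mp
        (by rw [← map_pow, hs, map_intCast] : σ s ^ 2 = s ^ 2) with e | e
      · rw [AlgEquiv.mul_apply, e, e]
      · rw [AlgEquiv.mul_apply, e, map_neg, e, neg_neg]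
    set T := σ * σ with hT
    set M := (B.rep T).map (PadicInt.toZModPow 1) with hM
    have hc := congrArg (fun M : Matrix (Fin 2) (Fin 2) ℤ_[3] =>
      M.map (PadicInt.toZModPow 1)) (rep_comm_of_sqrt hE hs B hσ2 hgs)
    have hc00 := congrFun (congrFun hc 0) 0
    have hc01 := congrFun (congrFun hc 0) 1
    simp only [Matrix.map_apply, Matrix.mul_apply, Fin.sum_univ_two, map_add, map_mul]
      at hc00 hc01
    have hβ := offDiag_ne_zero _ _ _ _ hdisc
    set v := M 0 1 * G 0 1 with hv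
    set u := M 0 0 - v * G 0 0 with hu
    have e00 : M 0 0 = u + v * G 0 0 := by rw [hu]; ring
    have e01 : M 0 1 = v * G 0 1 := by rw [hv]; linear_combination -(M 0 1) * hβ
    have e10 : M 1 0 = v * G 1 0 := by
      rw [hv]
      simp only [hM, hG, Matrix.map_apply] at hβ ⊢
      linear_combination -(PadicInt.toZModPow 1 (B.rep g 0 1)) * hc00 -
        (PadicInt.toZModPow 1 (B.rep T 1 0)) * hβ
    have e11 : M 1 1 = u + v * G 1 1 := by
      rw [hu, hv]
      simp only [hM, hG, Matrix.map_apply] at hβ ⊢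
      linear_combination -(PadicInt.toZModPow 1 (B.rep g 0 1)) * hc01 -
        (PadicInt.toZModPow 1 (B.rep T 1 1) - PadicInt.toZModPow 1 (B.rep T 0 0)) * hβ
    have hne : M 0 0 * M 1 1 - M 0 1 * M 1 0 ≠ 0 := by
      simp only [hM, Matrix.map_apply]
      rw [← map_mul, ← map_mul, ← map_sub, ← Matrix.det_fin_two, B.det_rep]
      exact ((FA.JTorsion.cycP 3 T).isUnit.map (PadicInt.toZModPow 1)).ne_zero
    rw [e00, e01, e10, e11] at hne
    have h8 := pow_eight _ _ _ _ u v hdisc hne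
    rw [← e00, ← e01, ← e10, ← e11, sq₄_spec, sq₄_spec, sq₄_spec] at h8
    simp only [Prod.mk.injEq] at h8
    have hM8 : M * M * (M * M) * (M * M * (M * M)) = 1 := by
      ext i j
      fin_cases i <;> fin_cases j <;> simp only [Fin.zero_eta, Fin.mk_one, Matrix.one_apply_eq,
        Matrix.one_apply_ne, ne_eq, zero_ne_one, one_ne_zero, not_false_eq_true]
      exacts [h8.1, h8.2.1, h8.2.2.1, h8.2.2.2]
    have hrep : (B.rep (σ ^ 16)).map (PadicInt.toZModPow 1) = 1 := by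
      rw [show σ ^ 16 = (T * T) * (T * T) * ((T * T) * (T * T)) by
          simp only [hT, ← sq, ← pow_mul]; norm_num, map_mul, map_mul,
        map_mul]
      simp only [Matrix.map_mul]
      exact hM8
    obtain ⟨w, rfl⟩ := B.surj 1 x (by rw [pow_one]; exact hx)
    rw [B.rep_spec, B.phi_eq_iff]
    intro i
    rw [RingHom.map_mulVec, hrep, one_mulVec]
    rfl
  -- the roots of the division polynomial are fixed by the sixteenth powers
  obtain ⟨c1, c2, c3, c4, c6⟩ := short_coeffs A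
  set α : Qb := (A.1 : Qb) with hα
  set β : Qb := (A.2 : Qb) with hβ
  have hfix : ∀ x : Qb, 3 * x ^ 4 + 6 * α * x ^ 2 + 12 * β * x - α ^ 2 = 0 →
      ∀ σ : GQ, (σ ^ 16) x = x := fun x hx σ => by
    obtain ⟨y, hy⟩ := IsAlgClosed.exists_pow_nat_eq (x ^ 3 + α * x + β) two_pos
    have hn : ((ratCurve (shortInt A))⁄Qb).toAffine.Nonsingular x y :=
      Affine.equation_iff_nonsingular.mp ((Affine.equation_iff x y).mpr (by
        rw [c1, c2, c3, c4, c6]; linear_combination hy))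
    obtain ⟨_, e⟩ := FA.Local.smul_some (σ := σ ^ 16) (ratCurve (shortInt A)) hn
    have := h16 σ _ (three_nsmul_of_root c1 c2 c3 hn (by rw [c4, c6]; exact hx))
    rw [e, Affine.Point.some.injEq] at this
    exact this.1
  have hroot : ∀ (f : Polynomial Qb), f.natDegree ≠ 0 → ∃ z, f.eval z = 0 := fun f hf =>
    IsAlgClosed.exists_root f fun h0 => hf (Polynomial.natDegree_eq_of_degree_eq_some h0)
  obtain ⟨x₁, hx₁⟩ := hroot (Polynomial.C 3 * Polynomial.X ^ 4 +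
    Polynomial.C (6 * α) * Polynomial.X ^ 2 + Polynomial.C (12 * β) * Polynomial.X -
      Polynomial.C (α ^ 2)) (by
        rw [show (Polynomial.C 3 * Polynomial.X ^ 4 + Polynomial.C (6 * α) * Polynomial.X ^ 2 +
          Polynomial.C (12 * β) * Polynomial.X - Polynomial.C (α ^ 2) : Polynomial Qb).natDegree = 4
            by compute_degree!]
        norm_num)
  obtain ⟨x₂, hx₂⟩ := hroot (Polynomial.X ^ 3 + Polynomial.C x₁ * Polynomial.X ^ 2 +
    Polynomial.C (x₁ ^ 2 + 2 * α) * Polynomial.X + Polynomial.C (x₁ ^ 3 + 2 * α * x₁ + 4 * β)) (by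
      rw [show (Polynomial.X ^ 3 + Polynomial.C x₁ * Polynomial.X ^ 2 + Polynomial.C
        (x₁ ^ 2 + 2 * α) * Polynomial.X + Polynomial.C (x₁ ^ 3 + 2 * α * x₁ + 4 * β) :
          Polynomial Qb).natDegree = 3 by compute_degree!]
      norm_num)
  obtain ⟨x₃, hx₃⟩ := hroot (Polynomial.X ^ 2 + Polynomial.C (x₁ + x₂) * Polynomial.X +
    Polynomial.C (x₁ ^ 2 + x₁ * x₂ + x₂ ^ 2 + 2 * α)) (by
      rw [show (Polynomial.X ^ 2 + Polynomial.C (x₁ + x₂) * Polynomial.X +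
        Polynomial.C (x₁ ^ 2 + x₁ * x₂ + x₂ ^ 2 + 2 * α) : Polynomial Qb).natDegree = 2
          by compute_degree!]
      norm_num)
  simp only [Polynomial.eval_add, Polynomial.eval_sub, Polynomial.eval_mul, Polynomial.eval_pow,
    Polynomial.eval_X, Polynomial.eval_C] at hx₁ hx₂ hx₃
  set x₄ := -x₁ - x₂ - x₃ with hx₄
  set θ := x₁ * x₂ + x₃ * x₄ - 2 * α / 3 with hθ
  have hθfix : ∀ σ : GQ, (σ ^ 16) θ = θ := fun σ => by
    have f1 := hfix x₁ hx₁ σ
    have f2 := hfix x₂ (by linear_combination 3 * (x₂ - x₁) * hx₂ + hx₁) σ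
    have f3 := hfix x₃ (by
      linear_combination 3 * (x₃ - x₁) * (x₃ - x₂) * hx₃ + 3 * (x₃ - x₁) * hx₂ + hx₁) σ
    rw [hθ, hx₄, map_sub, map_add, map_mul, map_mul, map_div₀, map_mul, map_sub, map_sub, map_neg,
      f1, f2, f3, map_ofNat, map_ofNat, hα, map_intCast]
  refine exists_cube_of_fixed (r := θ) ?_ hθfix
  push_cast
  rw [← hα, ← hβ, hθ, hx₄]
  -- the resolvent, in the symmetric functions of the roots
  have q4 : x₁ * x₂ * x₃ * (-x₁ - x₂ - x₃) = -α ^ 2 / 3 := by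
    linear_combination -(1 / 3 : Qb) * hx₁ + x₁ * hx₂ - x₁ * x₂ * hx₃
  have q3 : x₁ * x₂ * x₃ + (x₁ * x₂ + x₁ * x₃ + x₂ * x₃) * (-x₁ - x₂ - x₃) = -4 * β := by
    linear_combination hx₂ - (x₁ + x₂) * hx₃
  have q2 : x₁ * x₂ + x₁ * x₃ + x₂ * x₃ + (x₁ + x₂ + x₃) * (-x₁ - x₂ - x₃) = 2 * α := by
    linear_combination -hx₃
  linear_combination ((x₁ * x₂ + x₃ * (-x₁ - x₂ - x₃)) ^ 2 -
      4 * (x₁ * x₂ * x₃ * (-x₁ - x₂ - x₃))) * q2 +
    (4 * (x₁ * x₂ + x₃ * (-x₁ - x₂ - x₃)) - 8 * α) * q4 +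
    ((x₁ * x₂ * x₃ + (x₁ * x₂ + x₁ * x₃ + x₂ * x₃) * (-x₁ - x₂ - x₃)) - 4 * β) * q3

end Main

end FA.ExceptionalIsCM

end
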