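import Fermat.Agent.ExceptionalIsCM.Frobenius
import Fermat.Agent.ExceptionalIsCM.ShortPoints

/-!
# Galois of the exceptional field on Tate modules

Elements fixing `√d` commute on every Tate module, the others have trace zero.
-/

set_option autoImplicit false
set_option linter.style.haveILetI false

noncomputable section

open Matrix WeierstrassCurve WeierstrassCurve.Affine FA.EC FA.Frob FA.RT FA.RT.Tate
open FA.AlmostAll (shortInt shortRat shortInt_isIntegralModelOf)
open scoped WeierstrassCurve.Affine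

local notation "Qb" => AlgebraicClosure ℚ
local notation "GQ" => AlgebraicClosure ℚ ≃ₐ[ℚ] AlgebraicClosure ℚ

namespace FA.ExceptionalIsCM

open FA.CMStructure (IsExceptional)

section Commute

variable {W : WeierstrassCurve ℤ} [(ratCurve W).IsElliptic] {d : ℤ} {ℓ : ℕ} [Fact ℓ.Prime]

/-- Elements fixing `√d` commute on all torsion. -/
theorem smul_comm_of_sqrt (hE : IsExceptional W d) {s : Qb} (hs : s ^ 2 = (d : Qb)) {σ τ : GQ}
    (hσ : σ s = s) (hτ : τ s = s) {x : Pts W} (hx : IsOfFinAddOrder x) :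
    σ • τ • x = τ • σ • x := by
  obtain ⟨t, H, ht, hH, hopen, hfix⟩ :=
    FA.OpenImageAll.exists_index_two_of_sqrt hE.sqfree hE.ne_one
  have hmem : ∀ g : GQ, g s = s → g ∈ H := fun g hg => (hfix g).mpr (by
    rcases sq_eq_sq_iff_eq_or_eq_neg.mp (ht.trans hs.symm) with e | e
    · rw [e, hg]
    · rw [e, map_neg, hg])
  exact FA.Exceptional.smul_comm_of_fixed hE.sqfree.ne_zero ht hH hopen hfix hE.vanish
    (hmem σ hσ) (hmem τ hτ) hx

/-- They commute in the representation. -/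
theorem rep_comm_of_sqrt (hE : IsExceptional W d) {s : Qb} (hs : s ^ 2 = (d : Qb))
    (B : TateBasis ℓ W) {σ τ : GQ} (hσ : σ s = s) (hτ : τ s = s) :
    B.rep σ * B.rep τ = B.rep τ * B.rep σ := by
  refine B.ext_phi fun n v => ?_
  rw [← mulVec_mulVec, ← mulVec_mulVec, ← B.rep_spec, ← B.rep_spec, ← B.rep_spec, ← B.rep_spec]
  exact smul_comm_of_sqrt hE hs hσ hτ (isOfFinAddOrder_iff_nsmul_eq_zero.mpr
    ⟨ℓ ^ n, pow_pos (Fact.out : ℓ.Prime).pos n, B.nsmul_phi n v⟩)

/-- The others have trace zero. -/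
theorem trace_rep_eq_zero (hE : IsExceptional W d) {s : Qb} (hs : s ^ 2 = (d : Qb))
    (B : TateBasis ℓ W) {σ : GQ} (hσ : σ s ≠ s) : (B.rep σ).trace = 0 := by
  obtain ⟨t, H, ht, hH, hopen, hfix⟩ :=
    FA.OpenImageAll.exists_index_two_of_sqrt hE.sqfree hE.ne_one
  obtain ⟨X, hXX, -, -, ha⟩ := FA.CMStructure.exists_sqrt_matrix hE ht hH hopen hfix B
  have hns : σ ∉ H := fun hm => hσ (by
    rcases sq_eq_sq_iff_eq_or_eq_neg.mp (hs.trans ht.symm) with e | e
    · rw [e, (hfix σ).mp hm]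
    · rw [e, map_neg, (hfix σ).mp hm])
  have h := ha σ hns
  set M := (B.rep σ).map PadicInt.Coe.ringHom with hM
  have h2 : ((d : ℚ_[ℓ]) * 2) * M.trace = 0 := by
    have e1 : (M * X * X).trace = -((X * M * X).trace) := by rw [h, neg_mul, trace_neg]
    rw [trace_mul_cycle X M X, ← trace_mul_comm M (X * X), mul_assoc, hXX, Matrix.mul_smul,
      mul_one, trace_smul, smul_eq_mul] at e1
    linear_combination e1
  have hM0 : M.trace = 0 := (mul_eq_zero.mp h2).resolve_left
    (mul_ne_zero (Int.cast_ne_zero.mpr hE.sqfree.ne_zero) two_ne_zero)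
  have e : M.trace = ((B.rep σ).trace : ℚ_[ℓ]) := by
    simp [hM, Matrix.trace_fin_two]
  rw [e] at hM0
  exact PadicInt.coe_eq_zero.mp hM0

/-- An element of nonzero trace fixes `√d`. -/
theorem fixed_of_trace_ne_zero (hE : IsExceptional W d) {s : Qb} (hs : s ^ 2 = (d : Qb))
    (B : TateBasis ℓ W) {σ : GQ} (h : (B.rep σ).trace ≠ 0) : σ s = s :=
  of_not_not fun hne => h (trace_rep_eq_zero hE hs B hne)

end Commute

section Coord

variable {W : WeierstrassCurve ℤ} [(ratCurve W).IsElliptic]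

/-- Galois moves abscissas. -/
theorem xOf_smul (σ : GQ) (P : Pts W) : σ (xOf P) = xOf (σ • P) := by
  rcases P with _ | ⟨x, y, h⟩
  · exact map_zero σ
  · obtain ⟨h', e⟩ := FA.Local.smul_some (σ := σ) (ratCurve W) h
    rw [e]
    rfl

/-- The equation over `ℚ̄` of a short model. -/
theorem short_coeffs (A : ℤ × ℤ) :
    ((ratCurve (shortInt A))⁄Qb).toAffine.a₁ = 0 ∧ ((ratCurve (shortInt A))⁄Qb).toAffine.a₂ = 0 ∧
    ((ratCurve (shortInt A))⁄Qb).toAffine.a₃ = 0 ∧
    ((ratCurve (shortInt A))⁄Qb).toAffine.a₄ = (A.1 : Qb) ∧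
    ((ratCurve (shortInt A))⁄Qb).toAffine.a₆ = (A.2 : Qb) := by
  simp [ratCurve, WeierstrassCurve.baseChange]

end Coord

end FA.ExceptionalIsCM

end
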