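import Fermat.Agent.ExceptionalIsCM.TorsionBasics
import Fermat.Agent.Root.SummaryExceptionalField

/-!
# The two-torsion of an exceptional curve of `ℚ(√-p)`, `p ≡ 3 mod 8`

A Frobenius of odd trace permutes the roots of `x³ + A x + B` cyclically, the square root of the
discriminant moves with `√-p`, and an element fixing `√-p`, the roots and the eighth roots of
unity is scalar on `E[8]`, so it fixes fourth roots of `(e_j - e_i) / (e_j - e_k)`.
-/

set_option autoImplicit false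
set_option linter.style.haveILetI false

noncomputable section

open Matrix WeierstrassCurve WeierstrassCurve.Affine FA.EC FA.Frob FA.RT FA.RT.Tate
open FA.AlmostAll (shortInt shortRat shortInt_isIntegralModelOf)
open FA.JTorsion (cycP)
open scoped WeierstrassCurve.Affine

local notation "Qb" => AlgebraicClosure ℚ
local notation "GQ" => AlgebraicClosure ℚ ≃ₐ[ℚ] AlgebraicClosure ℚ

namespace FA.ExceptionalIsCM

/-- The product of the differences, oriented cyclically. -/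
def delta (e : Fin 3 → Qb) : Qb := (e 0 - e 1) * (e 1 - e 2) * (e 2 - e 0)

/-- What is used of the Galois action on the two-torsion and its quarters. -/
structure TwoData (A : ℤ × ℤ) (p : ℕ) where
  /-- `√-p` -/
  s : Qb
  /-- the roots -/
  e : Fin 3 → Qb
  hs : s ^ 2 = ((-(p : ℤ) : ℤ) : Qb)
  inj : Function.Injective e
  sum : e 0 + e 1 + e 2 = 0
  coeff₁ : (A.1 : Qb) = e 0 * e 1 + e 0 * e 2 + e 1 * e 2
  coeff₀ : (A.2 : Qb) = -(e 0 * e 1 * e 2)
  perm : ∀ (σ : GQ) (k : Fin 3), ∃ l, σ (e k) = e l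
  trans : ∀ k : Fin 3, ∃ σ : GQ, σ (e 0) = e k
  fixed : ∀ σ : GQ, σ s = s → σ (e 0) = e 0 → ∀ k, σ (e k) = e k
  delta_smul : ∀ σ : GQ, σ (delta e) * s = delta e * σ s
  quarter : ∀ i j k : Fin 3, i ≠ j → j ≠ k → i ≠ k → ∃ z : Qb,
    z ^ 4 = (e j - e i) / (e j - e k) ∧ ∀ σ : GQ, σ s = s → (∀ μ : Qb, μ ^ 8 = 1 → σ μ = μ) →
      (∀ l, σ (e l) = e l) → σ z = z

/-- Modulo two: a vector fixed by an element of odd trace and determinant, or by its square. -/
theorem no_fixed : ∀ a b c d : ZMod (2 ^ 1), a + d = 1 → a * d - b * c = 1 →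
    (¬ (a = 1 ∧ c = 0)) ∧ ¬ (a * a + b * c = 1 ∧ c * a + d * c = 0) := by decide

/-- Modulo two: trace zero, times an element of odd trace trace zero, determinant one. -/
theorem involution : ∀ a b c d x y z w : ZMod (2 ^ 1), x + w = 0 →
    (x * a + y * c) + (z * b + w * d) = 0 → a + d = 1 → x * w - y * z = 1 →
    ¬ (x = 1 ∧ y = 0 ∧ z = 0 ∧ w = 1) ∧
      (x * x + y * z = 1 ∧ x * y + y * w = 0 ∧ z * x + w * z = 0 ∧ z * y + w * w = 1) := by
  decide

/-- Modulo eight: `u + v g` of determinant one, even `v`, odd trace and determinant of `g`. -/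
theorem scalar_eight : ∀ u v t n : ZMod (2 ^ 3), 4 * u = 4 → 4 * v = 0 → 4 * t = 4 → 4 * n = 4 →
    u ^ 2 + t * u * v + n * v ^ 2 = 1 → v = 0 := by decide

/-- An odd residue is a unit. -/
theorem odd_isUnit : ∀ b : ZMod (2 ^ 3), 4 * b = 4 → ∃ c, b * c = 1 := by decide

/-- The off-diagonal entries are odd. -/
theorem offDiag_odd : ∀ a b c d : ZMod (2 ^ 1), a + d = 1 → a * d - b * c = 1 → b = 1 := by decide

theorem unit_two : ∀ u : ZMod (2 ^ 1), IsUnit u → u = 1 := by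
  intro u hu
  have h : ∀ u : ZMod (2 ^ 1), u = 1 ∨ u = 0 := by decide
  rcases h u with e | e
  · exact e
  · exact absurd (e ▸ hu) (by rw [isUnit_zero_iff]; decide)

theorem four_val_one : (4 : ZMod (2 ^ 3)) * ((1 : ZMod (2 ^ 1)).val : ZMod (2 ^ 3)) = 4 := by decide

theorem four_val_zero : (4 : ZMod (2 ^ 3)) * ((0 : ZMod (2 ^ 1)).val : ZMod (2 ^ 3)) = 0 := by
  decide

/-- The oriented product is invariant under the rotations. -/
theorem delta_shift (e : Fin 3 → Qb) (l : Fin 3) :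
    (e l - e (l + 1)) * (e (l + 1) - e (l + 1 + 1)) * (e (l + 1 + 1) - e l) = delta e := by
  unfold delta
  fin_cases l
  · rfl
  · show (e 1 - e 2) * (e 2 - e 0) * (e 0 - e 1) = _
    ring
  · show (e 2 - e 0) * (e 0 - e 1) * (e 1 - e 2) = _
    ring

theorem odd_residues : ∀ c : ZMod (2 ^ 3), 4 * c = 4 →
    c.val = 1 ∨ c.val = 3 ∨ c.val = 5 ∨ c.val = 7 := by decide

/-- Four times a residue modulo eight depends on the residue modulo two. -/
theorem four_mul_toZModPow (z : ℤ_[2]) :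
    (4 : ZMod (2 ^ 3)) * PadicInt.toZModPow 3 z =
      4 * ((PadicInt.toZModPow 1 z).val : ZMod (2 ^ 3)) := by
  have h : z - ((PadicInt.toZModPow 1 z).val : ℤ_[2]) ∈ RingHom.ker (PadicInt.toZModPow 1) := by
    rw [RingHom.mem_ker, map_sub, map_natCast, ZMod.natCast_zmod_val, sub_self]
  rw [PadicInt.ker_toZModPow, pow_one, Ideal.mem_span_singleton] at h
  obtain ⟨w, hw⟩ := h
  have hw' := congrArg (fun x : ℤ_[2] => (4 : ZMod (2 ^ 3)) * PadicInt.toZModPow 3 x) hw
  simp only [map_sub, map_mul, map_natCast, mul_sub] at hw'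
  have h8 : (4 : ZMod (2 ^ 3)) * ((2 : ℕ) : ZMod (2 ^ 3)) = 0 := by decide
  rw [← mul_assoc, h8, zero_mul, sub_eq_zero] at hw'
  exact hw'

section Main

variable {A : ℤ × ℤ} [(ratCurve (shortInt A)).IsElliptic] [(shortRat A).IsElliptic] {p : ℕ}

set_option linter.unusedSectionVars false in
/-- A nonzero point killed by two. -/
theorem exists_root_of_two_nsmul {P : Pts (shortInt A)} (h2 : 2 • P = 0) (h0 : P ≠ 0) :
    ∃ (e : Qb) (he : _), P = Affine.Point.some e 0 he ∧ e ^ 3 + A.1 * e + A.2 = 0 := by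
  obtain ⟨c1, c2, c3, c4, c6⟩ := short_coeffs A
  rcases P with _ | ⟨x, y, h⟩
  · exact absurd rfl h0
  have hy : y = 0 := by
    by_contra hy
    obtain ⟨y', h', e⟩ := exists_two_nsmul c1 c2 c3 h hy
    exact Affine.Point.some_ne_zero _ (e.symm.trans h2)
  subst hy
  refine ⟨x, h, rfl, ?_⟩
  have := equation_short c1 c2 c3 h
  rw [c4, c6] at this
  linear_combination -this

/-- **The Galois action on the two-torsion and its quarters.** -/
theorem exists_twoData (hp : p.Prime) (hp8 : p % 8 = 3) (hp3 : 3 < p)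
    (h : ∀ l : ℕ, ∀ [Fact l.Prime], (∃ C : VariableChange ℚ_[l],
      HasGoodReduction ℤ_[l] (C • (shortRat A).map (algebraMap ℚ ℚ_[l]))) →
        ¬ IsSquare ((-(p : ℤ) : ℤ) : ZMod l) → (shortRat A).LFunction l = 0) :
    Nonempty (TwoData A p) := by
  haveI : Fact (Nat.Prime 2) := ⟨Nat.prime_two⟩
  obtain ⟨hd, -⟩ := FA.Genus.squarefree_and_neg (d := -(p : ℤ))
    (Or.inr (Or.inr ⟨p, hp, by omega, rfl⟩))
  have hE := FA.CMStructure.isExceptional_of_curve (shortInt_isIntegralModelOf A) hd (by omega) h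
  obtain ⟨s, hs⟩ := IsAlgClosed.exists_pow_nat_eq ((-(p : ℤ) : ℤ) : Qb) two_pos
  obtain ⟨B⟩ := exists_tateBasis (p := 2) (shortInt A)
  obtain ⟨g, q, a, b, htr, hdet, he, ha0, hb, hab⟩ :=
    exists_frobenius hp hp3 (q₀ := (p + 1) / 4) (by omega) (by omega) h B
  obtain ⟨c1, c2, c3, c4, c6⟩ := short_coeffs A
  have hgs : g s = s := fixed_of_trace_ne_zero hE hs B (by rw [htr]; exact Int.cast_ne_zero.mpr ha0)
  -- parities
  have hb2 : b % 2 = 1 := Int.emod_two_ne_zero.mp fun h0 => hb (Int.dvd_of_emod_eq_zero h0)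
  have ha2 : a % 2 = 1 := by
    refine Int.emod_two_ne_zero.mp fun h0 => hb (Int.prime_two.dvd_of_dvd_pow (n := 2) ?_)
    exact (dvd_sub_right (dvd_pow (Int.dvd_of_emod_eq_zero h0) two_ne_zero)).mp (by simpa using hab)
  have hq2 : q % 2 = 1 := by
    obtain ⟨u, hu⟩ := Int.odd_iff.mpr ha2
    obtain ⟨v, hv⟩ := Int.odd_iff.mpr hb2
    obtain ⟨w, hw⟩ := Int.even_mul_succ_self u
    obtain ⟨w', hw'⟩ := Int.even_mul_succ_self v
    have h8 : (p : ℤ) = 8 * (p / 8 : ℕ) + 3 := by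
      have := Nat.div_add_mod p 8
      rw [hp8] at this
      exact_mod_cast this.symm
    rw [hu, hv, h8] at he
    have : q = 2 * (w + (8 * (p / 8 : ℕ) + 3) * w' + (p / 8 : ℕ)) + 1 :=
      mul_left_cancel₀ (show (4 : ℤ) ≠ 0 by norm_num)
        (by linear_combination he + 4 * hw + 4 * (8 * ((p / 8 : ℕ) : ℤ) + 3) * hw')
    omega
  have hodd : ∀ z : ℤ, z % 2 = 1 → PadicInt.toZModPow 1 (z : ℤ_[2]) = 1 := fun z hz => by
    rw [map_intCast, ← ZMod.intCast_mod z (2 ^ 1)]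
    norm_num [hz]
  set G : Fin 2 → Fin 2 → ZMod (2 ^ 1) := fun i j => PadicInt.toZModPow 1 (B.rep g i j) with hG
  have hGt : G 0 0 + G 1 1 = 1 := by
    rw [hG, ← map_add, ← Matrix.trace_fin_two, htr, hodd a ha2]
  have hGd : G 0 0 * G 1 1 - G 0 1 * G 1 0 = 1 := by
    rw [hG, ← map_mul, ← map_mul, ← map_sub, ← Matrix.det_fin_two, hdet, hodd q hq2]
  -- the first root
  have hT : B.φ 1 (Pi.single 0 1) ≠ 0 := fun h0 => by
    have := (B.ker 1 _).mp h0 0
    simp at this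
  obtain ⟨e₀, he₀, eT, r0⟩ :=
    exists_root_of_two_nsmul (by simpa using B.nsmul_phi 1 (Pi.single 0 1)) hT
  have hsm : ∀ (σ : GQ) (e : Qb) (he : _), ∃ he', σ • (Affine.Point.some e 0 he :
      Pts (shortInt A)) = Affine.Point.some (σ e) 0 he' := fun σ e he => by
    obtain ⟨he', hσ⟩ := FA.Local.smul_some (σ := σ) (ratCurve (shortInt A)) he
    refine ⟨by simpa using he', ?_⟩
    rw [hσ, Affine.Point.some.injEq]
    exact ⟨rfl, map_zero σ⟩
  have hroot : ∀ (σ : GQ) (e : Qb), e ^ 3 + A.1 * e + A.2 = 0 →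
      σ e ^ 3 + A.1 * σ e + A.2 = 0 := fun σ e he => by
    have := congrArg σ he
    simpa using this
  have hcol : ∀ σ : GQ, σ e₀ = e₀ → PadicInt.toZModPow 1 (B.rep σ 0 0) = 1 ∧
      PadicInt.toZModPow 1 (B.rep σ 1 0) = 0 := fun σ hσ => by
    obtain ⟨he', hσT⟩ := hsm σ e₀ he₀
    have h1 : σ • B.φ 1 (Pi.single 0 1) = B.φ 1 (Pi.single 0 1) := by
      rw [eT, hσT, Affine.Point.some.injEq]
      exact ⟨hσ, rfl⟩
    rw [B.rep_spec, mulVec_single_one, B.phi_eq_iff] at h1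
    exact ⟨by simpa using h1 0, by simpa using h1 1⟩
  have hne1 : g e₀ ≠ e₀ := fun h1 => (no_fixed _ _ _ _ hGt hGd).1 (hcol g h1)
  have hne2 : g (g e₀) ≠ e₀ := fun h1 => (no_fixed _ _ _ _ hGt hGd).2 (by
    have := hcol (g * g) h1
    simp only [map_mul, Matrix.mul_apply, Fin.sum_univ_two, map_add] at this
    exact this)
  set e : Fin 3 → Qb := ![e₀, g e₀, g (g e₀)] with hedef
  have hre : ∀ k, e k ^ 3 + A.1 * e k + A.2 = 0 := fun k => by
    fin_cases k
    exacts [r0, hroot g _ r0, hroot g _ (hroot g _ r0)]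
  have hinj : Function.Injective e := by
    intro i j hij
    fin_cases i <;> fin_cases j <;> simp only [hedef] at hij ⊢ <;> first
      | rfl
      | exact absurd hij hne1
      | exact absurd hij.symm hne1
      | exact absurd hij hne2
      | exact absurd hij.symm hne2
      | exact absurd (g.injective hij) hne1
      | exact absurd (g.injective hij).symm hne1
  have d01 := sub_ne_zero.mpr (hinj.ne (show (0 : Fin 3) ≠ 1 by decide))
  have d12 := sub_ne_zero.mpr (hinj.ne (show (1 : Fin 3) ≠ 2 by decide))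
  have d02 := sub_ne_zero.mpr (hinj.ne (show (0 : Fin 3) ≠ 2 by decide))
  have q01 : e 0 ^ 2 + e 0 * e 1 + e 1 ^ 2 + A.1 = 0 :=
    (mul_eq_zero.mp (show (e 0 - e 1) * (e 0 ^ 2 + e 0 * e 1 + e 1 ^ 2 + A.1) = 0 by
      linear_combination hre 0 - hre 1)).resolve_left d01
  have q02 : e 0 ^ 2 + e 0 * e 2 + e 2 ^ 2 + A.1 = 0 :=
    (mul_eq_zero.mp (show (e 0 - e 2) * (e 0 ^ 2 + e 0 * e 2 + e 2 ^ 2 + A.1) = 0 by
      linear_combination hre 0 - hre 2)).resolve_left d02
  have hsum : e 0 + e 1 + e 2 = 0 :=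
    (mul_eq_zero.mp (show (e 1 - e 2) * (e 0 + e 1 + e 2) = 0 by
      linear_combination q01 - q02)).resolve_left d12
  have hc1 : (A.1 : Qb) = e 0 * e 1 + e 0 * e 2 + e 1 * e 2 := by
    linear_combination q01 - (e 0 + e 1) * hsum
  have hc0 : (A.2 : Qb) = -(e 0 * e 1 * e 2) := by
    linear_combination hre 0 - e 0 * hc1 - e 0 ^ 2 * hsum
  have hall : ∀ x : Qb, x ^ 3 + A.1 * x + A.2 = 0 → ∃ l, x = e l := fun x hx => by
    have : (x - e 0) * (x - e 1) * (x - e 2) = 0 := by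
      linear_combination hx - x * hc1 - hc0 - x ^ 2 * hsum
    rcases mul_eq_zero.mp this with h' | h'
    · rcases mul_eq_zero.mp h' with h' | h'
      exacts [⟨0, sub_eq_zero.mp h'⟩, ⟨1, sub_eq_zero.mp h'⟩]
    · exact ⟨2, sub_eq_zero.mp h'⟩
  have hperm : ∀ (σ : GQ) (k : Fin 3), ∃ l, σ (e k) = e l := fun σ k =>
    hall _ (hroot σ _ (hre k))
  have hg3 : g (e 2) = e 0 := by
    obtain ⟨l, hl⟩ := hperm g 2
    fin_cases l
    · exact hl
    · exact absurd (g.injective hl).symm hne2.symm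
    · exact absurd (g.injective hl) (hinj.ne (show (2 : Fin 3) ≠ 1 by decide))
  have hstep : ∀ k, g (e k) = e (k + 1) := fun k => by
    fin_cases k
    exacts [rfl, rfl, hg3]
  -- elements fixing `√-p` commute with `g`
  have hcomm : ∀ (σ : GQ), σ s = s → ∀ k, σ (e (k + 1)) = g (σ (e k)) := fun σ hσ k => by
    have hns : ∀ x : Qb, x ^ 3 + A.1 * x + A.2 = 0 →
        ∃ hx, (Affine.Point.some x 0 hx : Pts (shortInt A)) ≠ 0 ∧
          2 • (Affine.Point.some x 0 hx : Pts (shortInt A)) = 0 := fun x hx =>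
      ⟨Affine.equation_iff_nonsingular.mp ((Affine.equation_iff x 0).mpr (by
          rw [c1, c2, c3, c4, c6]; linear_combination -hx)),
        Affine.Point.some_ne_zero _, two_nsmul_of_zero c1 c2 c3 _ rfl⟩
    obtain ⟨hk, -, h2⟩ := hns _ (hre k)
    have h1 := smul_comm_of_sqrt hE hs hσ hgs (x := Affine.Point.some (e k) 0 hk)
      (isOfFinAddOrder_iff_nsmul_eq_zero.mpr ⟨2, two_pos, h2⟩)
    obtain ⟨_, e1⟩ := hsm g (e k) hk
    obtain ⟨_, e2⟩ := hsm σ (e k) hk
    rw [e1, e2] at h1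
    obtain ⟨_, e3⟩ := hsm σ (g (e k)) _
    obtain ⟨_, e4⟩ := hsm g (σ (e k)) _
    rw [e3, e4, Affine.Point.some.injEq] at h1
    rw [← hstep]
    exact h1.1
  have hfix : ∀ σ : GQ, σ s = s → σ (e 0) = e 0 → ∀ k, σ (e k) = e k := fun σ hσ h0 k => by
    have h1 : σ (e 1) = e 1 := by rw [show (1 : Fin 3) = 0 + 1 from rfl, hcomm σ hσ, h0, hstep]
    have h2 : σ (e 2) = e 2 := by rw [show (2 : Fin 3) = 1 + 1 from rfl, hcomm σ hσ, h1, hstep]
    fin_cases k
    exacts [h0, h1, h2]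
  have hinv : ∀ σ : GQ, σ s ≠ s → (∃ k, σ (e k) ≠ e k) ∧ ∀ k, σ (σ (e k)) = e k := fun σ hσ => by
    have hσg : (σ * g) s ≠ s := by rwa [AlgEquiv.mul_apply, hgs]
    set M : Fin 2 → Fin 2 → ZMod (2 ^ 1) := fun i j => PadicInt.toZModPow 1 (B.rep σ i j) with hM
    have hMt : M 0 0 + M 1 1 = 0 := by
      rw [hM, ← map_add, ← Matrix.trace_fin_two, trace_rep_eq_zero hE hs B hσ, map_zero]
    have hMgt : (M 0 0 * G 0 0 + M 0 1 * G 1 0) + (M 1 0 * G 0 1 + M 1 1 * G 1 1) = 0 := by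
      have := congrArg (PadicInt.toZModPow 1) (trace_rep_eq_zero hE hs B hσg)
      simpa [map_mul, Matrix.trace_fin_two, Matrix.mul_apply, Fin.sum_univ_two, hM, hG] using this
    have hMd : M 0 0 * M 1 1 - M 0 1 * M 1 0 = 1 := by
      rw [hM, ← map_mul, ← map_mul, ← map_sub, ← Matrix.det_fin_two, B.det_rep]
      have hu := (cycP 2 σ).isUnit.map (PadicInt.toZModPow 1)
      exact unit_two _ hu
    obtain ⟨hne, hsq⟩ := involution _ _ _ _ _ _ _ _ hMt hMgt hGt hMd
    refine ⟨by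
      by_contra hfixall
      push Not at hfixall
      have h1 := B.rep_congr_one (σ := σ) (n := 1) fun x hx => by
        rcases eq_or_ne x 0 with rfl | hx0
        · exact FA.Local.gal_smul_zero _ σ
        obtain ⟨r, hr, rfl, hr'⟩ := exists_root_of_two_nsmul (by simpa using hx) hx0
        obtain ⟨l, rfl⟩ := hall r hr'
        obtain ⟨_, e1⟩ := hsm σ (e l) hr
        rw [e1, Affine.Point.some.injEq]
        exact ⟨hfixall l, rfl⟩
      exact hne ⟨congrFun (congrFun h1 0) 0, congrFun (congrFun h1 0) 1,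
        congrFun (congrFun h1 1) 0, congrFun (congrFun h1 1) 1⟩, fun k => ?_⟩
    have h1 : (B.rep (σ * σ)).map (PadicInt.toZModPow 1) = 1 := by
      ext i j
      fin_cases i <;> fin_cases j <;>
        simp [map_mul, Matrix.mul_apply, Fin.sum_univ_two] <;>
        first | exact hsq.1 | exact hsq.2.1 | exact hsq.2.2.1 | exact hsq.2.2.2
    obtain ⟨hn, hk2⟩ : ∃ hn, 2 • (Affine.Point.some (e k) 0 hn : Pts (shortInt A)) = 0 :=
      ⟨Affine.equation_iff_nonsingular.mp ((Affine.equation_iff (e k) 0).mpr (by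
        rw [c1, c2, c3, c4, c6]; linear_combination -(hre k))),
        two_nsmul_of_zero c1 c2 c3 _ rfl⟩
    obtain ⟨v, hv⟩ := B.surj 1 (Affine.Point.some (e k) 0 hn) (by rw [pow_one]; exact hk2)
    have hfixT : (σ * σ) • B.φ 1 v = B.φ 1 v := by
      rw [B.rep_spec, B.phi_eq_iff]
      intro i
      rw [RingHom.map_mulVec, h1, one_mulVec]
      rfl
    obtain ⟨_, e1⟩ := hsm (σ * σ) (e k) hn
    rw [hv, e1, Affine.Point.some.injEq] at hfixT
    exact hfixT.1
  refine ⟨⟨s, e, hs, hinj, hsum, hc1, hc0, hperm, fun k => ?_, hfix, fun σ => ?_, ?_⟩⟩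
  · fin_cases k
    exacts [⟨1, rfl⟩, ⟨g, rfl⟩, ⟨g * g, rfl⟩]
  · choose π hπ using hperm σ
    unfold delta
    simp only [map_mul, map_sub, hπ]
    by_cases hσ : σ s = s
    · have hc : ∀ k, π (k + 1) = π k + 1 := fun k =>
        hinj (by rw [← hπ, hcomm σ hσ, hπ, hstep])
      have h2 : π 2 = π 1 + 1 := hc 1
      rw [hσ, h2, show π 1 = π 0 + 1 from hc 0, delta_shift]
      rfl
    · obtain ⟨⟨k, hk⟩, hii⟩ := hinv σ hσ
      have hswap : ∀ π : Fin 3 → Fin 3, (∀ k, π (π k) = k) → (∃ k, π k ≠ k) →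
          π = ![1, 0, 2] ∨ π = ![0, 2, 1] ∨ π = ![2, 1, 0] := by decide
      have hσs : σ s = -s := ((sq_eq_sq_iff_eq_or_eq_neg).mp
        (by rw [← map_pow, hs, map_intCast] : σ s ^ 2 = s ^ 2)).resolve_left hσ
      rcases hswap π (fun k => hinj (by rw [← hπ, ← hπ, hii])) ⟨k, fun e' => hk (by rw [hπ, e'])⟩
        with rfl | rfl | rfl <;> rw [hσs] <;> simp <;> ring
  intro i j k hij hjk hik
  have hj := hre j
  obtain ⟨v, hv⟩ := B.surj 1 (Affine.Point.some (e j) 0 (Affine.equation_iff_nonsingular.mp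
    ((Affine.equation_iff (e j) 0).mpr (by
      rw [c1, c2, c3, c4, c6]; linear_combination -hj)))) (by
        rw [pow_one]; exact two_nsmul_of_zero c1 c2 c3 _ rfl)
  set R : Pts (shortInt A) := B.φ 3 v with hR
  have h4R : 4 • R = Affine.Point.some (e j) 0 _ := (B.pow_compat 1 2 v).trans hv
  have hcyc : ∀ i j k : Fin 3, i ≠ j → j ≠ k → i ≠ k →
      (i = 0 ∧ j = 1 ∧ k = 2) ∨ (i = 0 ∧ j = 2 ∧ k = 1) ∨ (i = 1 ∧ j = 0 ∧ k = 2) ∨
      (i = 1 ∧ j = 2 ∧ k = 0) ∨ (i = 2 ∧ j = 0 ∧ k = 1) ∨ (i = 2 ∧ j = 1 ∧ k = 0) := by decide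
  obtain ⟨hA1, hA0, hS⟩ : (A.1 : Qb) = e i * e j + e i * e k + e j * e k ∧
      (A.2 : Qb) = -(e i * e j * e k) ∧ e i + e j + e k = 0 := by
    rcases hcyc i j k hij hjk hik with h' | h' | h' | h' | h' | h' <;>
      rw [h'.1, h'.2.1, h'.2.2] <;>
      exact ⟨by linear_combination hc1, by linear_combination hc0, by linear_combination hsum⟩
  refine ⟨_, quarter_pow c1 c2 c3 (c4.trans hA1) (c6.trans hA0) hS (hinj.ne hik) (hinj.ne hjk) _
    h4R, fun σ hσ hμ hfixe => ?_⟩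
  -- `σ` is scalar on `E[8]`
  set N : Fin 2 → Fin 2 → ZMod (2 ^ 3) := fun i j => PadicInt.toZModPow 3 (B.rep σ i j) with hN
  set H : Fin 2 → Fin 2 → ZMod (2 ^ 3) := fun i j => PadicInt.toZModPow 3 (B.rep g i j) with hH
  have hM2 := B.rep_congr_one (σ := σ) (n := 1) fun x hx => by
    rcases eq_or_ne x 0 with rfl | hx0
    · exact FA.Local.gal_smul_zero _ σ
    obtain ⟨r, hr, rfl, hr'⟩ := exists_root_of_two_nsmul (by simpa using hx) hx0
    obtain ⟨l, rfl⟩ := hall r hr'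
    obtain ⟨_, e1⟩ := hsm σ (e l) hr
    rw [e1, Affine.Point.some.injEq]
    exact ⟨hfixe l, rfl⟩
  have h00 : 4 * N 0 0 = 4 := by
    rw [hN, four_mul_toZModPow, show PadicInt.toZModPow 1 (B.rep σ 0 0) = 1 from
      congrFun (congrFun hM2 0) 0]
    exact four_val_one
  have h01 : 4 * N 0 1 = 0 := by
    rw [hN, four_mul_toZModPow, show PadicInt.toZModPow 1 (B.rep σ 0 1) = 0 from
      congrFun (congrFun hM2 0) 1]
    exact four_val_zero
  have hH01 : 4 * H 0 1 = 4 := by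
    rw [hH, four_mul_toZModPow, show PadicInt.toZModPow 1 (B.rep g 0 1) = 1 from
      offDiag_odd _ _ _ _ hGt hGd]
    exact four_val_one
  obtain ⟨β, hβ⟩ := odd_isUnit _ hH01
  have hc := congrArg (fun M : Matrix (Fin 2) (Fin 2) ℤ_[2] =>
    M.map (PadicInt.toZModPow 3)) (rep_comm_of_sqrt hE hs B hσ hgs)
  have hc00 := congrFun (congrFun hc 0) 0
  have hc01 := congrFun (congrFun hc 0) 1
  simp only [Matrix.map_apply, Matrix.mul_apply, Fin.sum_univ_two, map_add, map_mul] at hc00 hc01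
  set v' := N 0 1 * β with hv'
  set u := N 0 0 - v' * H 0 0 with hu
  have e01 : N 0 1 = v' * H 0 1 := by rw [hv']; linear_combination -(N 0 1) * hβ
  have e10 : N 1 0 = v' * H 1 0 := by
    rw [hv']
    linear_combination -β * hc00 - N 1 0 * hβ
  have e11 : N 1 1 = u + v' * H 1 1 := by
    rw [hu, hv']
    linear_combination -β * hc01 - (N 1 1 - N 0 0) * hβ
  have hdet1 : N 0 0 * N 1 1 - N 0 1 * N 1 0 = 1 := by
    rw [hN, ← map_mul, ← map_mul, ← map_sub, ← Matrix.det_fin_two, B.det_rep]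
    exact (cycP_eq_natCast (n := 3) (a := 1) fun μ hμ8 => by
      rw [pow_one]; exact hμ μ (by simpa using hμ8)).trans Nat.cast_one
  have hv0 : v' = 0 := by
    refine scalar_eight u v' (H 0 0 + H 1 1) (H 0 0 * H 1 1 - H 0 1 * H 1 0) ?_ ?_ ?_ ?_ ?_
    · rw [hu, hv']
      linear_combination h00 - β * H 0 0 * h01
    · rw [hv']; linear_combination β * h01
    · rw [hH, ← map_add, ← Matrix.trace_fin_two, four_mul_toZModPow, htr, hodd a ha2]
      exact four_val_one
    · rw [hH, ← map_mul, ← map_mul, ← map_sub, ← Matrix.det_fin_two, four_mul_toZModPow, hdet,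
        hodd q hq2]
      exact four_val_one
    · rw [e01, e10, e11] at hdet1
      linear_combination hdet1
  set c := (N 0 0).val with hcval
  have hσR : σ • R = c • R := by
    rw [hR, B.rep_spec, ← map_nsmul, B.phi_eq_iff]
    intro i
    rw [RingHom.map_mulVec, Pi.smul_apply, nsmul_eq_mul, map_mul, map_natCast, hcval,
      ZMod.natCast_zmod_val, mulVec, dotProduct, Fin.sum_univ_two]
    simp only [Matrix.map_apply, Function.comp_apply]
    fin_cases i
    · show N 0 0 * _ + N 0 1 * _ = N 0 0 * _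
      rw [e01, hv0]; simp
    · show N 1 0 * _ + N 1 1 * _ = N 0 0 * _
      rw [e10, e11, hv0, hu, hv0]; simp
  have h8 : 8 • R = 0 := B.nsmul_phi 3 v
  have hmul : ∀ m : ℕ, σ (xOf (m • R)) = xOf ((c * m) • R) := fun m => by
    rw [xOf_smul, gal_smul_nsmul, hσR, ← mul_nsmul]
  have hmod : ∀ m : ℕ, m • R = (m % 8) • R := fun m => by
    conv_lhs => rw [← Nat.mod_add_div m 8, add_nsmul, mul_nsmul, h8, nsmul_zero, add_zero]
  have hneg : ∀ m : ℕ, m ≤ 8 → xOf ((8 - m) • R) = xOf (m • R) := fun m hm => by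
    rw [← xOf_neg]
    congr 1
    rw [neg_eq_iff_add_eq_zero, ← add_nsmul, Nat.sub_add_cancel hm, h8]
  have h1R : R = 1 • R := (one_nsmul R).symm
  rw [map_div₀, map_sub, map_add, map_mul, map_mul, map_sub, map_ofNat, hfixe k, h1R, ← mul_nsmul,
    ← mul_nsmul, hmul, hmul, hmul]
  rcases odd_residues _ h00 with hc' | hc' | hc' | hc' <;> rw [← hcval] at hc' <;>
    rw [hc'] <;> simp only [one_mul, mul_one, Nat.reduceMul]
  · rw [show xOf (3 • R) = xOf (5 • R) from hneg 5 (by norm_num),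
      show (15 : ℕ) • R = 7 • R from hmod 15, show xOf (7 • R) = xOf (1 • R) from
        hneg 1 (by norm_num), show xOf (6 • R) = xOf (2 • R) from hneg 2 (by norm_num)]
    ring
  · rw [show (25 : ℕ) • R = 1 • R from hmod 25, show (10 : ℕ) • R = 2 • R from hmod 10]
    ring
  · rw [show xOf (7 • R) = xOf (1 • R) from hneg 1 (by norm_num),
      show (35 : ℕ) • R = 3 • R from hmod 35, show xOf (3 • R) = xOf (5 • R) from
        hneg 5 (by norm_num), show (14 : ℕ) • R = 6 • R from hmod 14,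
      show xOf (6 • R) = xOf (2 • R) from hneg 2 (by norm_num)]

end Main

end FA.ExceptionalIsCM

end
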